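import Mathlib
import Fermat.Prelude.Thm_IsLocalRing_isAdicComplete_of_module_finite
import Fermat.Prelude.Thm_Algebra_finite_maximalSpectrum_and_bijective_localization_of_module_finite

/-!
# Finite extensions of complete discrete valuation rings, and extensions of homomorphisms
-/

set_option autoImplicit false

open IsLocalRing

noncomputable section

namespace FermatAgent.ES

/-- The natural map from `ℤ_p` to a complete local ring of residue characteristic `p`. -/
theorem exists_padicRingHom (p : ℕ) [Fact p.Prime] (O : Type*) [CommRing O] [IsLocalRing O]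
    [IsAdicComplete (maximalIdeal O) O] (hp : (p : O) ∈ maximalIdeal O) :
    Nonempty (ℤ_[p] →+* O) := by
  have hmem : ∀ n : ℕ, ((p ^ n : ℕ) : O ⧸ maximalIdeal O ^ n) = 0 := fun n => by
    rw [← map_natCast (Ideal.Quotient.mk (maximalIdeal O ^ n)), Ideal.Quotient.eq_zero_iff_mem,
      Nat.cast_pow]
    exact Ideal.pow_mem_pow hp n
  let g : ∀ n : ℕ, ZMod (p ^ n) →+* O ⧸ maximalIdeal O ^ n := fun n =>
    ZMod.castHom (ringChar.dvd (hmem n)) _
  refine ⟨IsAdicComplete.liftRingHom (maximalIdeal O) (fun n => (g n).comp (PadicInt.toZModPow n))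
    fun {m n} hle => ?_⟩
  rw [← RingHom.comp_assoc, ← PadicInt.zmod_cast_comp_toZModPow m n hle, ← RingHom.comp_assoc]
  congr 1
  exact RingHom.ext_zmod _ _

/-- A linear map out of a finite module has values in a finite subextension. -/
theorem exists_finite_subfield {R F Ω : Type*} [CommRing R] [Field F] [Field Ω] [Algebra F Ω]
    [Algebra.IsAlgebraic F Ω] [Module R F] [Module R Ω] [IsScalarTower R F Ω] {H : Type*}
    [AddCommGroup H] [Module R H] [Module.Finite R H] (f : H →ₗ[R] Ω) :
    ∃ E : IntermediateField F Ω, FiniteDimensional F E ∧ ∀ x, f x ∈ E := by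
  obtain ⟨t, ht⟩ := Module.Finite.fg_top (R := R) (M := H)
  have : Finite (f '' (t : Set H)) := (t.finite_toSet.image f).to_subtype
  refine ⟨IntermediateField.adjoin F (f '' t),
    IntermediateField.finiteDimensional_adjoin fun x _ => Algebra.IsIntegral.isIntegral x,
    fun x => ?_⟩
  have hx : x ∈ Submodule.span R (t : Set H) := ht ▸ Submodule.mem_top
  induction hx using Submodule.span_induction with
  | mem z hz => exact IntermediateField.subset_adjoin F _ ⟨z, hz, rfl⟩
  | zero => rw [map_zero]; exact zero_mem _
  | add z w _ _ hz hw => rw [map_add]; exact add_mem hz hw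
  | smul c z _ hz =>
    rw [map_smul, ← smul_one_smul F c (f z)]
    exact IntermediateField.smul_mem _ hz

section Integral

variable (O : Type) [CommRing O] [IsDomain O] [IsDiscreteValuationRing O]
  [IsAdicComplete (maximalIdeal O) O] [Finite (ResidueField O)] [CharZero O]

variable (F L : Type) [Field F] [Algebra O F] [IsFractionRing O F] [Field L] [Algebra F L]
  [FiniteDimensional F L] [Algebra O L] [IsScalarTower O F L]

omit [IsDomain O] [IsDiscreteValuationRing O] [IsAdicComplete (maximalIdeal O) O]
    [Finite (ResidueField O)] [CharZero O] [FiniteDimensional F L] in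
include F in
/-- The integral closure in an extension contains the base ring. -/
theorem injective_algebraMap_integralClosure :
    Function.Injective (algebraMap O (integralClosure O L)) := fun x y h => by
  have h' := congrArg Subtype.val h
  change algebraMap O L x = algebraMap O L y at h'
  rw [IsScalarTower.algebraMap_apply O F L, IsScalarTower.algebraMap_apply O F L] at h'
  exact IsFractionRing.injective O _ ((algebraMap F L).injective h')

include F in
/-- Finite extensions of complete discrete valuation rings with finite residue field. -/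
theorem integralClosure_spec :
    IsDiscreteValuationRing (integralClosure O L) ∧
      Module.Finite O (integralClosure O L) ∧
      ∃ _ : IsLocalRing (integralClosure O L),
        IsAdicComplete (maximalIdeal (integralClosure O L)) (integralClosure O L) ∧
        Finite (ResidueField (integralClosure O L)) ∧
        IsLocalHom (algebraMap O (integralClosure O L)) := by
  set A := integralClosure O L
  have : CharZero F := charZero_of_injective_algebraMap (IsFractionRing.injective O F)
  have : Algebra.IsSeparable F L := inferInstance
  have : IsDedekindDomain A := IsIntegralClosure.isDedekindDomain O F L A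
  have hfin : Module.Finite O A := IsIntegralClosure.finite O F L A
  have hinj := injective_algebraMap_integralClosure O F L
  have : Module.IsTorsionFree O A :=
    Module.isTorsionFree_iff_algebraMap_injective.mpr hinj
  have : Module.Free O A := inferInstance
  set I := (maximalIdeal O).map (algebraMap O A)
  have : Algebra.IsIntegral O A := inferInstance
  have hMle : ∀ M : Ideal A, M.IsMaximal → I ≤ M := fun M hM => by
    rw [Ideal.map_le_iff_le_comap]
    exact (IsLocalRing.eq_maximalIdeal (Ideal.isMaximal_comap_of_isIntegral_of_isMaximal M)).ge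
  -- a domain is not a product of two local rings
  have hloc : IsLocalRing A := by
    classical
    obtain ⟨-, hbij, -, -⟩ :=
      Algebra.finite_maximalSpectrum_and_bijective_localization_of_module_finite (𝒪 := O) A
    obtain ⟨M1, hM1⟩ := Ideal.exists_maximal A
    refine IsLocalRing.of_unique_max_ideal ⟨M1, hM1, fun M2 hM2 => ?_⟩
    by_contra hne
    obtain ⟨x, hx⟩ := hbij.2 (Pi.single (⟨M1, hM1⟩ : MaximalSpectrum A) 1)
    have h1 := congrFun hx ⟨M1, hM1⟩
    have h2 := congrFun hx ⟨M2, hM2⟩
    rw [Pi.single_eq_same] at h1
    rw [Pi.single_eq_of_ne (fun h => hne (congrArg MaximalSpectrum.asIdeal h))] at h2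
    have h0 : x = 0 := IsLocalization.injective (Localization.AtPrime M2)
      M2.primeCompl_le_nonZeroDivisors (h2.trans (map_zero _).symm)
    simp [h0] at h1
  have := hloc
  have hnf : ¬ IsField A := fun hF =>
    IsDiscreteValuationRing.not_isField O
      (isField_of_isIntegral_of_isField hinj hF)
  have : IsPrincipalIdealRing A := by
    refine IsPrincipalIdealRing.of_finite_primes ((Set.toFinite {⊥, maximalIdeal A}).subset
      fun P hP => ?_)
    rcases eq_or_ne P ⊥ with h | h
    · exact Or.inl h
    · exact Or.inr (IsLocalRing.eq_maximalIdeal (Ring.DimensionLEOne.maximalOfPrime h hP))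
  have hdvr : IsDiscreteValuationRing A :=
    { not_a_field' := fun h => hnf (IsLocalRing.isField_iff_maximalIdeal_eq.mpr h) }
  have hIle : I ≤ maximalIdeal A := hMle _ (maximalIdeal.isMaximal A)
  have hlh : IsLocalHom (algebraMap O A) := by
    refine ((IsLocalRing.local_hom_TFAE (algebraMap O A)).out 2 0).mp ?_
    exact hIle
  refine ⟨hdvr, hfin, hloc, IsLocalRing.isAdicComplete_of_module_finite (𝒪 := O), ?_, hlh⟩
  exact Module.finite_of_finite (ResidueField O)

end Integral

/-- **A finite model** of a character with values in the algebraic closure, over a finite extension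
of the coefficient ring. -/
theorem exists_finite_model (O : Type) [CommRing O] [IsDomain O] [IsDiscreteValuationRing O]
    [IsAdicComplete (maximalIdeal O) O] [Finite (ResidueField O)] [CharZero O] {p : ℕ}
    [Fact p.Prime] (hp : (p : O) ∈ maximalIdeal O) {H : Type} [CommRing H] [Module.Finite ℤ H]
    (g : H →+* AlgebraicClosure (FractionRing O)) :
    ∃ (O'' : Type) (_ : CommRing O'') (_ : IsDomain O'') (_ : IsDiscreteValuationRing O'')
      (_ : IsAdicComplete (maximalIdeal O'') O'') (_ : Finite (ResidueField O''))
      (_ : CharZero O'') (_ : Algebra O O'') (_ : Module.Finite O O'')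
      (_ : IsLocalHom (algebraMap O O'')),
      Function.Injective (algebraMap O O'') ∧ (p : O'') ∈ maximalIdeal O'' ∧
      Nonempty (ℤ_[p] →+* O'') ∧
      ∃ (χ : H →+* O'') (j : O'' →ₐ[O] AlgebraicClosure (FractionRing O)),
        Function.Injective j ∧ ∀ t, j (χ t) = g t := by
  obtain ⟨L, hL, hmem⟩ :=
    exists_finite_subfield (F := FractionRing O) g.toAddMonoidHom.toIntLinearMap
  have : IsScalarTower O L (AlgebraicClosure (FractionRing O)) :=
    IsScalarTower.of_algebraMap_eq fun o => IsScalarTower.algebraMap_apply O (FractionRing O) _ o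
  obtain ⟨hdvr, hfin, hloc, hcomp, hres, hlh⟩ := integralClosure_spec O (FractionRing O) L
  set O'' := integralClosure O L
  have hinj := injective_algebraMap_integralClosure O (FractionRing O) L
  have hp'' : (p : O'') ∈ maximalIdeal O'' := by
    rw [← map_natCast (algebraMap O O'')]
    exact map_nonunit (algebraMap O O'') _ hp
  refine ⟨O'', inferInstance, inferInstance, hdvr, hcomp, hres,
    charZero_of_injective_algebraMap hinj, inferInstance, hfin, hlh, hinj, hp'',
    exists_padicRingHom p O'' hp'',
    (g.codRestrict L hmem).codRestrict O''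
      (fun t => ((IsIntegral.of_finite ℤ t).map (g.codRestrict L hmem).toIntAlgHom).tower_top),
    (IsScalarTower.toAlgHom O L _).comp O''.val,
    (algebraMap L _).injective.comp Subtype.val_injective, fun _ => rfl⟩

/-- A homomorphism into an algebraically closed field extends along an injective integral map. -/
theorem exists_ringHom_extend {A B : Type*} [CommRing A] [CommRing B] [Algebra A B]
    [Algebra.IsIntegral A B] (hinj : Function.Injective (algebraMap A B))
    {Ω : Type*} [Field Ω] [IsAlgClosed Ω] (f : A →+* Ω) :
    ∃ g : B →+* Ω, g.comp (algebraMap A B) = f := by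
  set P := RingHom.ker f
  have : P.IsPrime := RingHom.ker_isPrime f
  obtain ⟨Q, -, hQ, hQP⟩ := Ideal.exists_ideal_over_prime_of_isIntegral P (⊥ : Ideal B)
    (by rw [← RingHom.ker_eq_comap_bot, (RingHom.injective_iff_ker_eq_bot _).mp hinj]; exact bot_le)
  have : Q.LiesOver P := ⟨hQP.symm⟩
  let : Algebra (A ⧸ P) Ω := (RingHom.kerLift f).toAlgebra
  have : FaithfulSMul (A ⧸ P) Ω :=
    (faithfulSMul_iff_algebraMap_injective _ _).mpr (RingHom.kerLift_injective f)
  have : Algebra.IsIntegral (A ⧸ P) (B ⧸ Q) :=
    Algebra.IsIntegral.tower_top (R := A)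
  have : Algebra.IsAlgebraic (A ⧸ P) (B ⧸ Q) := Algebra.IsIntegral.isAlgebraic
  have : Module.IsTorsionFree (A ⧸ P) (B ⧸ Q) := FaithfulSMul.to_isTorsionFree (A ⧸ P) (B ⧸ Q)
  let g : B ⧸ Q →ₐ[A ⧸ P] Ω := IsAlgClosed.lift
  refine ⟨g.toRingHom.comp (Ideal.Quotient.mk Q), RingHom.ext fun a => ?_⟩
  show g (Ideal.Quotient.mk Q (algebraMap A B a)) = f a
  rw [show Ideal.Quotient.mk Q (algebraMap A B a) =
    algebraMap (A ⧸ P) (B ⧸ Q) (Ideal.Quotient.mk P a) from rfl, AlgHom.commutes]
  rfl

end FermatAgent.ES
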