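import Fermat.Agent.ES.Forms.GalChar
import Fermat.Agent.Period.Lattice
import Mathlib.Analysis.SpecialFunctions.Complex.CircleAddChar
import Mathlib.NumberTheory.Padics.RingHoms

/-!
# Compatible systems of parabolic characters and parabolic homomorphisms into `ℤ_p`
-/

set_option autoImplicit false

open CongruenceSubgroup
open scoped MatrixGroups Real
open ModularCurve ModularCurve.Period

noncomputable section

namespace FermatAgent.ES

/-- The standard identification of `ZMod n` with the `n`-th roots of unity. -/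
def zU (n : ℕ) [NeZero n] : Multiplicative (ZMod n) →* ℂˣ :=
  (ZMod.stdAddChar (N := n)).toMonoidHom.toHomUnits

theorem coe_zU {n : ℕ} [NeZero n] (a : ZMod n) :
    ((zU n (Multiplicative.ofAdd a) : ℂˣ) : ℂ) = ZMod.stdAddChar a := rfl

/-- The identification with roots of unity is injective. -/
theorem zU_injective (n : ℕ) [NeZero n] : Function.Injective (zU n) := fun _ _ h =>
  Multiplicative.toAdd.injective (ZMod.injective_stdAddChar (congrArg Units.val h))

/-- Only zero maps to one. -/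
theorem zU_ne_iff {n : ℕ} [NeZero n] (a : ZMod n) :
    zU n (Multiplicative.ofAdd a) = 1 ↔ a = 0 := by
  rw [← map_one (zU n), (zU_injective n).eq_iff, ofAdd_eq_one]

/-- The values have order dividing `n`. -/
theorem zU_pow_eq_one {n : ℕ} [NeZero n] (a : Multiplicative (ZMod n)) : zU n a ^ n = 1 := by
  rw [← map_pow, show a ^ n = 1 from Multiplicative.toAdd.injective (by simp), map_one]

/-- Every `n`-th root of unity is a value. -/
theorem exists_zU_eq {n : ℕ} [NeZero n] {x : ℂˣ} (hx : x ^ n = 1) :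
    ∃ a : ZMod n, zU n (Multiplicative.ofAdd a) = x := by
  obtain ⟨i, -, hi⟩ := (zetaC_isPrimitiveRoot n).eq_pow_of_pow_eq_one
    (ξ := (x : ℂ)) (by rw [← Units.val_pow_eq_pow_val, hx, Units.val_one])
  refine ⟨((i : ℤ) : ZMod n), Units.ext ?_⟩
  rw [coe_zU, ZMod.stdAddChar_coe, ← hi, zetaC, ← Complex.exp_nat_mul]
  congr 1
  push_cast; ring

theorem zU_pow_cast {m n : ℕ} [NeZero m] [NeZero n] {q : ℕ} (h : n = m * q) (a : ZMod n) :
    zU n (Multiplicative.ofAdd a) ^ q =
      zU m (Multiplicative.ofAdd (ZMod.castHom ⟨q, h⟩ (ZMod m) a)) := by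
  refine Units.ext ?_
  obtain ⟨i, rfl⟩ := ZMod.intCast_surjective a
  rw [show ZMod.castHom ⟨q, h⟩ (ZMod m) ((i : ZMod n)) = (i : ZMod m) from map_intCast _ i,
    Units.val_pow_eq_pow_val, coe_zU, coe_zU, ZMod.stdAddChar_coe,
    ZMod.stdAddChar_coe, ← Complex.exp_nat_mul]
  congr 1
  have hm : (m : ℂ) ≠ 0 := Nat.cast_ne_zero.mpr (NeZero.ne m)
  have hq : (q : ℂ) ≠ 0 := Nat.cast_ne_zero.mpr fun h0 => NeZero.ne n (by rw [h, h0, mul_zero])
  rw [h]; push_cast
  field_simp

variable (p : ℕ) [hp : Fact p.Prime] {Γ : Subgroup SL(2, ℤ)}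

/-- The `k`-th character attached to a `p`-adic homomorphism. -/
def padChar (k : ℕ) (ψ : parabolicHoms ℤ_[p] Γ ℤ_[p]) : parGroup Γ (p ^ k) :=
  ⟨(zU (p ^ k)).comp (AddMonoidHom.toMultiplicativeRight
      ((PadicInt.toZModPow (p := p) k).toAddMonoidHom.comp ψ.1)),
    MonoidHom.ext fun γ => by rw [MonoidHom.pow_apply]; exact zU_pow_eq_one _,
    fun γ hγ => by
      show zU _ (Multiplicative.ofAdd (PadicInt.toZModPow k (ψ.1 (Additive.ofMul γ)))) = 1
      rw [ψ.2 γ hγ, map_zero]; exact map_one _⟩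

/-- The value of the `k`-th character. -/
theorem padChar_apply (k : ℕ) (ψ : parabolicHoms ℤ_[p] Γ ℤ_[p]) (γ : Γ) :
    (padChar p k ψ : Γ →* ℂˣ) γ =
      zU (p ^ k) (Multiplicative.ofAdd (PadicInt.toZModPow k (ψ.1 (Additive.ofMul γ)))) := rfl

/-- `p`-adic characters kill torsion. -/
theorem padChar_of_isOfFinOrder (k : ℕ) (ψ : parabolicHoms ℤ_[p] Γ ℤ_[p]) {δ : Γ}
    (hδ : IsOfFinOrder δ) : (padChar p k ψ : Γ →* ℂˣ) δ = 1 := by
  obtain ⟨o, ho, hoe⟩ := isOfFinOrder_iff_pow_eq_one.1 hδ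
  have h : ψ.1 (Additive.ofMul δ) = 0 := by
    have h1 := map_nsmul ψ.1 o (Additive.ofMul δ)
    rw [← ofMul_pow, hoe, ofMul_one, map_zero] at h1
    exact (smul_eq_zero.1 h1.symm).resolve_left ho.ne'
  rw [padChar_apply, h, map_zero]
  exact map_one _

/-- The attached characters are multiplicative in the homomorphism. -/
theorem padChar_add (k : ℕ) (ψ ψ' : parabolicHoms ℤ_[p] Γ ℤ_[p]) :
    padChar p k (ψ + ψ') = padChar p k ψ * padChar p k ψ' := by
  refine Subtype.ext (MonoidHom.ext fun γ => ?_)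
  rw [Subgroup.coe_mul, MonoidHom.mul_apply, padChar_apply, padChar_apply, padChar_apply,
    ← map_mul, ← ofAdd_add, ← map_add]
  rfl

/-- Scalars act on the attached characters through their residue. -/
theorem padChar_smul (k : ℕ) (a : ℤ_[p]) (ψ : parabolicHoms ℤ_[p] Γ ℤ_[p]) :
    padChar p k (a • ψ) = padChar p k ψ ^ (PadicInt.toZModPow k a).val := by
  refine Subtype.ext (MonoidHom.ext fun γ => ?_)
  rw [SubgroupClass.coe_pow, MonoidHom.pow_apply, padChar_apply, padChar_apply, ← map_pow,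
    ← ofAdd_nsmul, nsmul_eq_mul, ZMod.natCast_zmod_val, ← map_mul]
  rfl

/-- The attached characters form a compatible system. -/
theorem padChar_succ (k : ℕ) (ψ : parabolicHoms ℤ_[p] Γ ℤ_[p]) :
    (padChar p (k + 1) ψ : Γ →* ℂˣ) ^ p = (padChar p k ψ : Γ →* ℂˣ) := by
  refine MonoidHom.ext fun γ => ?_
  rw [MonoidHom.pow_apply, padChar_apply, padChar_apply, zU_pow_cast (m := p ^ k) (pow_succ p k)]
  congr 2
  exact DFunLike.congr_fun (PadicInt.zmod_cast_comp_toZModPow k (k + 1) k.le_succ) _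

/-- The attached characters determine the homomorphism. -/
theorem padChar_ext {ψ ψ' : parabolicHoms ℤ_[p] Γ ℤ_[p]}
    (h : ∀ k, padChar p k ψ = padChar p k ψ') : ψ = ψ' := by
  refine Subtype.ext (AddMonoidHom.ext fun x => PadicInt.ext_of_toZModPow.mp fun k => ?_)
  have h1 := DFunLike.congr_fun (congrArg Subtype.val (h k)) (Additive.toMul x)
  rw [padChar_apply, padChar_apply] at h1
  exact Multiplicative.ofAdd.injective (zU_injective _ h1)

/-- Natural multiples give powers of the attached characters. -/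
theorem padChar_nsmul (k m : ℕ) (ψ : parabolicHoms ℤ_[p] Γ ℤ_[p]) :
    padChar p k (m • ψ) = padChar p k ψ ^ m := by
  induction m with
  | zero =>
    rw [zero_smul, pow_zero]
    refine Subtype.ext (MonoidHom.ext fun γ => ?_)
    rw [padChar_apply, ZeroMemClass.coe_zero, AddMonoidHom.zero_apply, map_zero]
    exact map_one _
  | succ m ih => rw [add_smul, one_smul, padChar_add, ih, pow_succ]

/-- Homomorphisms with the same `k`-th character are congruent modulo `p ^ k`. -/
theorem dvd_of_padChar_eq {k : ℕ} {ψ ψ' : parabolicHoms ℤ_[p] Γ ℤ_[p]}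
    (h : padChar p k ψ = padChar p k ψ') (γ : Γ) :
    (p : ℤ_[p]) ^ k ∣ ψ.1 (Additive.ofMul γ) - ψ'.1 (Additive.ofMul γ) := by
  have h1 := DFunLike.congr_fun (congrArg Subtype.val h) γ
  rw [padChar_apply, padChar_apply] at h1
  have h2 := Multiplicative.ofAdd.injective (zU_injective _ h1)
  rwa [← sub_eq_zero, ← map_sub, ← RingHom.mem_ker, PadicInt.ker_toZModPow,
    Ideal.mem_span_singleton] at h2

/-- A compatible system of residues is a `p`-adic integer. -/
theorem exists_padic_of_compat (a : ∀ k, ZMod (p ^ k))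
    (h : ∀ k, ZMod.castHom (pow_dvd_pow p k.le_succ) (ZMod (p ^ k)) (a (k + 1)) = a k) :
    ∃ x : ℤ_[p], ∀ k, PadicInt.toZModPow k x = a k := by
  have hi : ∀ i, (p : ℤ) ^ i ∣ ((a (i + 1)).val : ℤ) - (a i).val := fun i => by
    rw [← Nat.cast_pow, ← ZMod.intCast_zmod_eq_zero_iff_dvd]
    push_cast
    rw [ZMod.natCast_zmod_val, sub_eq_zero, ← h i, ZMod.castHom_apply, ZMod.natCast_val]
  refine ⟨PadicInt.ofIntSeq _ (PadicInt.isCauSeq_padicNorm_of_pow_dvd_sub
    (fun i => ((a i).val : ℤ)) p hi), fun k => ?_⟩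
  rw [PadicInt.toZModPow_ofIntSeq_of_pow_dvd_sub (fun i => ((a i).val : ℤ)) p hi]
  simp

/-- A compatible system of characters comes from a `p`-adic homomorphism. -/
theorem exists_padChar_eq (φ : ∀ k, parGroup Γ (p ^ k))
    (h : ∀ k, (φ (k + 1) : Γ →* ℂˣ) ^ p = (φ k : Γ →* ℂˣ)) :
    ∃ ψ : parabolicHoms ℤ_[p] Γ ℤ_[p], ∀ k, padChar p k ψ = φ k := by
  choose a ha using fun (k : ℕ) (γ : Γ) => exists_zU_eq (n := p ^ k)
    (show (φ k : Γ →* ℂˣ) γ ^ p ^ k = 1 from DFunLike.congr_fun (φ k).2.1 γ)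
  have hinj : ∀ {k} {x y : ZMod (p ^ k)},
      zU (p ^ k) (Multiplicative.ofAdd x) = zU (p ^ k) (Multiplicative.ofAdd y) → x = y :=
    fun hxy => Multiplicative.ofAdd.injective (zU_injective _ hxy)
  choose x hx using fun γ => exists_padic_of_compat p (fun k => a k γ) fun k => hinj (by
    rw [← zU_pow_cast (m := p ^ k) (pow_succ p k), ha, ha, ← MonoidHom.pow_apply, h])
  refine ⟨⟨{ toFun := fun t => x (Additive.toMul t)
             map_zero' := PadicInt.ext_of_toZModPow.mp fun k => hinj (by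
               rw [hx, ha]; simp)
             map_add' := fun s t => PadicInt.ext_of_toZModPow.mp fun k => hinj (by
               rw [hx, ha, toMul_add, map_mul, map_add, hx, hx, ofAdd_add, map_mul, ha, ha]) },
      fun γ hγ => PadicInt.ext_of_toZModPow.mp fun k => hinj (by
        show zU _ (Multiplicative.ofAdd (PadicInt.toZModPow k (x γ))) = _
        rw [hx, ha, (φ k).2.2 γ hγ, map_zero]; exact (map_one _).symm)⟩,
    fun k => Subtype.ext (MonoidHom.ext fun γ => ?_)⟩
  rw [padChar_apply]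
  show zU _ (Multiplicative.ofAdd (PadicInt.toZModPow k (x γ))) = _
  rw [hx, ha]

end FermatAgent.ES
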