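import Fermat.Agent.ES.Forms.GalChar
import Fermat.Agent.ES.Hecke.ComplexConj
import Fermat.Agent.Mazur.Kummer
import Mathlib.NumberTheory.Cyclotomic.CyclotomicCharacter

/-!
# The `p`-adic cyclotomic character of `ℚ`
-/

set_option autoImplicit false

noncomputable section

namespace FermatAgent.ES

variable (p : ℕ) [hp : Fact p.Prime]

/-- The `p`-adic cyclotomic character, with values in `ℤ_p`. -/
def padCyclo : GQ →* ℤ_[p] :=
  (Units.coeHom ℤ_[p]).comp ((cyclotomicCharacter (AlgebraicClosure ℚ) p).comp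
    { toFun := fun g : GQ => g.toRingEquiv
      map_one' := rfl
      map_mul' := fun _ _ => rfl })

/-- The defining property modulo `p ^ k`. -/
theorem padCyclo_spec (g : GQ) (k : ℕ) {t : AlgebraicClosure ℚ} (ht : t ^ p ^ k = 1) :
    g t = t ^ (PadicInt.toZModPow k (padCyclo p g)).val := by
  exact cyclotomicCharacter.spec p g.toRingEquiv t ht

/-- The character modulo `p ^ k` is the exponent on a primitive root of unity of order `p ^ k`. -/
theorem toZModPow_padCyclo_eq {g : GQ} {k : ℕ} {ζ : AlgebraicClosure ℚ}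
    (hζ : IsPrimitiveRoot ζ (p ^ k)) {c : ℕ} (hc : g ζ = ζ ^ c) :
    PadicInt.toZModPow k (padCyclo p g) = (c : ZMod (p ^ k)) := by
  rw [padCyclo_spec p g k hζ.pow_eq_one, (hζ.isOfFinOrder (NeZero.ne _)).pow_eq_pow_iff_modEq,
    ← hζ.eq_orderOf] at hc
  rw [← ZMod.natCast_zmod_val (PadicInt.toZModPow k (padCyclo p g))]
  exact (ZMod.natCast_eq_natCast_iff _ _ _).mpr hc

/-- `ℚ̄` has primitive roots of unity of order `p ^ k`. -/
theorem exists_primitive_qbar (k : ℕ) : ∃ ζ : AlgebraicClosure ℚ, IsPrimitiveRoot ζ (p ^ k) := by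
  exact HasEnoughRootsOfUnity.exists_primitiveRoot _ _

/-- A Frobenius at `ℓ ≠ p` has character `ℓ`. -/
theorem padCyclo_frobenius {ℓ : ℕ} (hℓ : ℓ.Prime) (hℓp : ℓ ≠ p)
    {A : ValuationSubring (AlgebraicClosure ℚ)} (hA : A.LiesOverPrime ℓ) {g : GQ}
    (hg : A.IsFrobeniusAt g ℓ) : padCyclo p g = ℓ := by
  refine PadicInt.ext_of_toZModPow.mp fun k => ?_
  obtain ⟨ζ, hζ⟩ := exists_primitive_qbar p k
  rw [map_natCast]
  exact toZModPow_padCyclo_eq p hζ (Mazur.frobenius_rootsOfUnity hℓ hA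
    (fun h => hℓp ((Nat.prime_dvd_prime_iff_eq hℓ hp.out).mp (hℓ.dvd_of_dvd_pow h)))
    (pow_ne_zero _ hp.out.ne_zero) hg hζ.pow_eq_one)

/-- Complex conjugation has character `-1`. -/
theorem padCyclo_complexConjugation : padCyclo p complexConjugation = -1 := by
  refine PadicInt.ext_of_toZModPow.mp fun k => ?_
  obtain ⟨ζ, hζ⟩ := exists_primitive_qbar p k
  have h : complexConjugation ζ = ζ ^ (p ^ k - 1) :=
    complexConjugation_of_pow_eq_one hζ.pow_eq_one
  rw [map_neg, map_one, toZModPow_padCyclo_eq p hζ h,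
    Nat.cast_sub (Nat.one_le_pow _ _ hp.out.pos), ZMod.natCast_self, Nat.cast_one, zero_sub]

/-- The cyclotomic character is continuous. -/
theorem padCyclo_continuous (k : ℕ) :
    ∃ L : IntermediateField ℚ (AlgebraicClosure ℚ), FiniteDimensional ℚ L ∧
      ∀ g : GQ, (∀ x ∈ L, g x = x) → (p : ℤ_[p]) ^ k ∣ padCyclo p g - 1 := by
  obtain ⟨ζ, hζ⟩ := exists_primitive_qbar p k
  refine ⟨IntermediateField.adjoin ℚ {ζ},
    IntermediateField.adjoin.finiteDimensional (Algebra.IsIntegral.isIntegral ζ), fun g hg => ?_⟩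
  have h := toZModPow_padCyclo_eq p (c := 1) hζ (by
    rw [pow_one]; exact hg ζ (IntermediateField.mem_adjoin_simple_self ℚ ζ))
  rw [← Ideal.mem_span_singleton, ← PadicInt.ker_toZModPow, RingHom.mem_ker, map_sub, map_one, h,
    Nat.cast_one, sub_self]

/-- In characteristic `p` the character is the exponent on the roots of unity of order `p`. -/
theorem map_padCyclo_eq {k : Type*} [CommRing k] (f : ℤ_[p] →+* k) (hk : (p : k) = 0) {g : GQ}
    {ζ : AlgebraicClosure ℚ} (hζ : IsPrimitiveRoot ζ p) {c : ℕ} (hc : g ζ = ζ ^ c) :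
    f (padCyclo p g) = c := by
  have h := toZModPow_padCyclo_eq p (k := 1) (by rwa [pow_one]) hc
  rw [← map_natCast (PadicInt.toZModPow (p := p) 1), ← sub_eq_zero, ← map_sub,
    ← RingHom.mem_ker, PadicInt.ker_toZModPow, Ideal.mem_span_singleton, pow_one] at h
  obtain ⟨y, hy⟩ := h
  rw [sub_eq_iff_eq_add.mp hy, map_add, map_mul, map_natCast, map_natCast, hk, zero_mul, zero_add]

end FermatAgent.ES
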