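import Fermat.Agent.ES.Tate.EigenLattice
import Fermat.Agent.ES.Tate.Cyclo
import Fermat.Agent.GaloisBasic.CharpolyDensity
import Mathlib.LinearAlgebra.Matrix.Charpoly.Coeff

/-!
# The two dimensional representation of an eigensystem, and its determinant

For a Hecke eigensystem `χ` of level `N` with values in a discrete valuation ring `O`, Galois acts
on the eigenlattice of rank two (`eigLat_finrank`, `eigEnd`, `eigMat`); this is the representation
`eigRep`, unramified at `ℓ ∤ N p` with characteristic polynomial `X² - χ(T_ℓ) X + ℓ` of Frobenius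
(`charpoly_eigRep_frobenius`, `eigRep_unramified`). The determinant is the cyclotomic character
(`det_eigMat`): the congruence relation and approximation by Frobenius powers give this or a scalar
matrix (`det_eq_or_scalar`); complex conjugation, which is not scalar, excludes the latter.
-/

set_option autoImplicit false

open CongruenceSubgroup Polynomial IsLocalRing
open scoped Matrix
open FermatAgent.Period (parRank parMat invMat)

noncomputable section

namespace FermatAgent.ES

/-- A `2 × 2` matrix killed by `X² - a X + d`, of determinant `d ≠ 0`, has trace `a`. -/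
theorem trace_eq_of_quadratic {R : Type} [CommRing R] [IsDomain R] (M : Matrix (Fin 2) (Fin 2) R)
    {a d : R} (hd : d ≠ 0) (hdet : M.det = d) (h : M * M - a • M + d • 1 = 0) : M.trace = a := by
  have e00 := congrFun (congrFun h 0) 0
  have e01 := congrFun (congrFun h 0) 1
  have e10 := congrFun (congrFun h 1) 0
  have e11 := congrFun (congrFun h 1) 1
  simp [Matrix.mul_apply, Fin.sum_univ_two] at e00 e01 e10 e11
  rw [Matrix.det_fin_two] at hdet
  rw [Matrix.trace_fin_two]
  by_contra hne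
  have h0 : M 0 0 + M 1 1 - a ≠ 0 := sub_ne_zero.mpr hne
  have m00 : M 0 0 = 0 := (mul_eq_zero.mp (show (M 0 0 + M 1 1 - a) * M 0 0 = 0 by
    linear_combination e00 + hdet)).resolve_left h0
  have m01 : M 0 1 = 0 := (mul_eq_zero.mp (show (M 0 0 + M 1 1 - a) * M 0 1 = 0 by
    linear_combination e01)).resolve_left h0
  refine hd ?_
  rw [← hdet, m00, m01]; ring

theorem det_eq_or_scalar_of_quadratic {R : Type} [CommRing R] [IsDomain R]
    (M : Matrix (Fin 2) (Fin 2) R) {a d : R} (h : M * M - a • M + d • 1 = 0) :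
    M.det = d ∨ (M 0 1 = 0 ∧ M 1 0 = 0 ∧ M 0 0 = M 1 1) := by
  have e00 := congrFun (congrFun h 0) 0
  have e01 := congrFun (congrFun h 0) 1
  have e10 := congrFun (congrFun h 1) 0
  have e11 := congrFun (congrFun h 1) 1
  simp [Matrix.mul_apply, Fin.sum_univ_two] at e00 e01 e10 e11
  rw [Matrix.det_fin_two]
  by_cases ht : M 0 0 + M 1 1 - a = 0
  · left; linear_combination M 0 0 * ht - e00
  · right
    have m01 : M 0 1 = 0 := (mul_eq_zero.mp (show (M 0 0 + M 1 1 - a) * M 0 1 = 0 by
      linear_combination e01)).resolve_left ht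
    have m10 : M 1 0 = 0 := (mul_eq_zero.mp (show (M 0 0 + M 1 1 - a) * M 1 0 = 0 by
      linear_combination e10)).resolve_left ht
    refine ⟨m01, m10, sub_eq_zero.mp ((mul_eq_zero.mp (show (M 0 0 + M 1 1 - a) *
      (M 0 0 - M 1 1) = 0 by linear_combination e00 - e11)).resolve_left ht)⟩

variable {p : ℕ} [hp : Fact p.Prime] {N : ℕ} [NeZero N] {O : Type} [CommRing O] [IsDomain O]
  [IsDiscreteValuationRing O] [CharZero O] (ι : ℤ_[p] →+* O)
  (χ : CuspForm.heckeAlgebra N 2 ∅ →+* O)

section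

omit [IsDomain O] [IsDiscreteValuationRing O] [CharZero O]

theorem galMat_map_mulVec_mem (g : GQ) {v : Fin (parRank (Gamma0 N)) → O} (hv : v ∈ eigLat χ) :
    (galMat p N g).map ι *ᵥ v ∈ eigLat χ := by
  refine (mem_eigLat χ).mpr fun t => ?_
  have hc := congrArg (fun M => M.map ι) (galMat_commute p t g).eq
  simp only [Matrix.map_mul] at hc
  rw [show (heckePadMat p t).map ι = intMat O t from intMat_map ι t] at hc
  rw [Matrix.mulVec_mulVec, ← hc, ← Matrix.mulVec_mulVec, (mem_eigLat χ).mp hv t,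
    Matrix.mulVec_smul]

/-- The representation on the eigenlattice. -/
def eigEnd : GQ →* Module.End O (eigLat χ) where
  toFun g := ((galMat p N g).map ι).mulVecLin.restrict fun _ => galMat_map_mulVec_mem ι χ g
  map_one' := LinearMap.ext fun v => Subtype.ext (by
    show (galMat p N 1).map ι *ᵥ (v : Fin _ → O) = v
    rw [map_one, Matrix.map_one _ (map_zero ι) (map_one ι), Matrix.one_mulVec])
  map_mul' g h := LinearMap.ext fun v => Subtype.ext (by
    show (galMat p N (g * h)).map ι *ᵥ (v : Fin _ → O) =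
      (galMat p N g).map ι *ᵥ ((galMat p N h).map ι *ᵥ (v : Fin _ → O))
    rw [map_mul, Matrix.map_mul, Matrix.mulVec_mulVec])

/-- The action on the eigenlattice is by the matrices of the Tate module. -/
theorem coe_eigEnd (g : GQ) (v : eigLat χ) :
    ((eigEnd ι χ g v : eigLat χ) : Fin (parRank (Gamma0 N)) → O) = (galMat p N g).map ι *ᵥ v := rfl

/-- The congruence relation on the eigenlattice. -/
theorem eigEnd_congruence {ℓ : ℕ} (hℓ : ℓ.Prime) (hℓN : ¬ ℓ ∣ N) (hℓp : ℓ ≠ p)
    {A : ValuationSubring (AlgebraicClosure ℚ)} (hA : A.LiesOverPrime ℓ) {g : GQ}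
    (hg : A.IsFrobeniusAt g ℓ) :
    eigEnd ι χ g * eigEnd ι χ g - χ ⟨_, MF.heckeAt_mem hℓ (Set.notMem_empty ℓ)⟩ • eigEnd ι χ g +
      (ℓ : O) • 1 = 0 := by
  refine LinearMap.ext fun v => Subtype.ext ?_
  set t : CuspForm.heckeAlgebra N 2 ∅ := ⟨_, MF.heckeAt_mem hℓ (Set.notMem_empty ℓ)⟩
  have h := congrArg (fun M => M.map ι *ᵥ (v : Fin (parRank (Gamma0 N)) → O))
    (galMat_congruence p hℓ hℓN hℓp hA hg)
  simp only [Matrix.map_add ι (map_add ι), Matrix.map_sub ι (map_sub ι), Matrix.map_mul,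
    Matrix.map_zero ι (map_zero ι), Matrix.zero_mulVec, Matrix.add_mulVec, Matrix.sub_mulVec,
    ← Matrix.mulVec_mulVec] at h
  rw [show (heckePadMat p t).map ι = intMat O t from intMat_map ι t,
    (mem_eigLat χ).mp (galMat_map_mulVec_mem ι χ g v.2) t,
    show ((ℓ : Matrix (Fin (parRank (Gamma0 N))) (Fin (parRank (Gamma0 N))) ℤ_[p]).map ι) =
      Matrix.diagonal fun _ => (ℓ : O) from by
        rw [← Matrix.diagonal_natCast, Matrix.diagonal_map (map_zero ι)]; simp] at h
  simp only [LinearMap.add_apply, LinearMap.sub_apply, LinearMap.smul_apply, Module.End.mul_apply,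
    Module.End.one_apply, Submodule.coe_add, Submodule.coe_sub, Submodule.coe_smul, coe_eigEnd,
    Submodule.coe_zero, LinearMap.zero_apply]
  rw [← h]
  congr 1
  funext i
  rw [Matrix.mulVec_diagonal]
  rfl

end

theorem eigLat_finrank : Module.finrank O (eigLat χ) = 2 :=
  finrank_eigLat (K := FractionRing O) χ

/-- A basis of the eigenlattice. -/
def eigBasis : Module.Basis (Fin 2) O (eigLat χ) :=
  Module.finBasisOfFinrankEq O _ (eigLat_finrank χ)

/-- The representation as matrices. -/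
def eigMat : GQ →* Matrix (Fin 2) (Fin 2) O :=
  ((LinearMap.toMatrixAlgEquiv (eigBasis χ)).toAlgHom.toRingHom.toMonoidHom).comp (eigEnd ι χ)

/-- The matrix of the representation. -/
theorem eigMat_apply (g : GQ) :
    eigMat ι χ g = LinearMap.toMatrix (eigBasis χ) (eigBasis χ) (eigEnd ι χ g) := rfl

theorem eigMat_quadratic {ℓ : ℕ} (hℓ : ℓ.Prime) (hℓN : ¬ ℓ ∣ N) (hℓp : ℓ ≠ p)
    {A : ValuationSubring (AlgebraicClosure ℚ)} (hA : A.LiesOverPrime ℓ) {g : GQ}
    (hg : A.IsFrobeniusAt g ℓ) :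
    eigMat ι χ g * eigMat ι χ g -
      χ ⟨_, MF.heckeAt_mem hℓ (Set.notMem_empty ℓ)⟩ • eigMat ι χ g + (ℓ : O) • 1 = 0 := by
  set F : Module.End O (eigLat χ) ≃ₐ[O] Matrix (Fin 2) (Fin 2) O :=
    LinearMap.toMatrixAlgEquiv (eigBasis χ)
  set t : CuspForm.heckeAlgebra N 2 ∅ := ⟨_, MF.heckeAt_mem hℓ (Set.notMem_empty ℓ)⟩
  have h : eigEnd ι χ g * eigEnd ι χ g + (ℓ : O) • 1 = χ t • eigEnd ι χ g :=
    LinearMap.ext fun v => by
      have hv := LinearMap.congr_fun (eigEnd_congruence ι χ hℓ hℓN hℓp hA hg) v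
      simp only [LinearMap.add_apply, LinearMap.sub_apply, LinearMap.zero_apply] at hv
      rw [sub_add_eq_add_sub, sub_eq_zero] at hv
      simpa only [LinearMap.add_apply] using hv
  have h' := congrArg F h
  rw [map_add, map_mul, map_smul, map_one, map_smul] at h'
  rw [sub_add_eq_add_sub, sub_eq_zero]
  exact h'

section Continuity

variable (hpm : (p : O) ∈ maximalIdeal O)
include hpm

omit [CharZero O] in
theorem map_mem_pow {x : ℤ_[p]} {k : ℕ} (h : (p : ℤ_[p]) ^ k ∣ x) :
    ι x ∈ maximalIdeal O ^ k := by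
  obtain ⟨y, rfl⟩ := h
  rw [map_mul, map_pow, map_natCast]
  exact Ideal.mul_mem_right _ _ (Ideal.pow_mem_pow hpm k)

omit [CharZero O] in
/-- The representation on the eigenlattice is continuous. -/
theorem eigEnd_isAdicContinuous : GaloisActionIsAdicContinuous O (eigEnd ι χ) := by
  intro k
  obtain ⟨L, hL, h⟩ := galMat_continuous p (N := N) k
  refine ⟨L, hL, fun g hg v => ?_⟩
  obtain ⟨π, hπ⟩ := IsDiscreteValuationRing.exists_irreducible O
  rw [hπ.maximalIdeal_eq, Ideal.span_singleton_pow, Submodule.ideal_span_singleton_smul]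
  have hdiv : ∀ i, π ^ k ∣ ((eigEnd ι χ g v - v : eigLat χ) : Fin (parRank (Gamma0 N)) → O) i :=
    fun i => by
    rw [← Ideal.mem_span_singleton, ← Ideal.span_singleton_pow, ← hπ.maximalIdeal_eq,
      Submodule.coe_sub, coe_eigEnd,
      show ((galMat p N g).map ι *ᵥ (v : Fin _ → O) - v) =
        (galMat p N g - 1).map ι *ᵥ (v : Fin _ → O) by
        rw [Matrix.map_sub ι (map_sub ι), Matrix.map_one _ (map_zero ι) (map_one ι),
          Matrix.sub_mulVec, Matrix.one_mulVec]]
    simp only [Matrix.mulVec, dotProduct]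
    refine Ideal.sum_mem _ fun j _ => Ideal.mul_mem_right _ _ ?_
    exact map_mem_pow ι hpm (h g hg i j)
  choose y hy using hdiv
  have hw : ((eigEnd ι χ g v - v : eigLat χ) : Fin (parRank (Gamma0 N)) → O) = π ^ k • y :=
    funext hy
  have hyL : y ∈ eigLat χ := (mem_eigLat χ).mpr fun t => by
    have h1 := (mem_eigLat χ).mp (eigEnd ι χ g v - v).2 t
    rw [hw, Matrix.mulVec_smul, smul_comm] at h1
    exact smul_right_injective _ (pow_ne_zero k hπ.ne_zero) h1
  exact Submodule.mem_smul_pointwise_iff_exists _ _ _ |>.mpr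
    ⟨⟨y, hyL⟩, Submodule.mem_top, Subtype.ext hw.symm⟩

/-- The representation matrices and the cyclotomic character are continuous modulo each power of the
maximal ideal. -/
theorem eigMat_continuous (k : ℕ) :
    ∃ L : IntermediateField ℚ (AlgebraicClosure ℚ), FiniteDimensional ℚ L ∧
      ∀ g ∈ L.fixingSubgroup,
        ((Ideal.Quotient.mk (maximalIdeal O ^ k)).mapMatrix.toMonoidHom.comp (eigMat ι χ)) g = 1 ∧
          Ideal.Quotient.mk (maximalIdeal O ^ k) (ι (padCyclo p g)) = 1 := by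
  obtain ⟨L1, hL1, h1⟩ := eigEnd_isAdicContinuous ι χ hpm k
  obtain ⟨L2, hL2, h2⟩ := padCyclo_continuous p k
  have := hL1; have := hL2
  refine ⟨L1 ⊔ L2, inferInstance, fun g hg => ⟨?_, ?_⟩⟩
  · have hg1 : ∀ x ∈ L1, g x = x := fun x hx =>
      ((IntermediateField.mem_fixingSubgroup_iff _ _).mp hg) x (le_sup_left (a := L1) hx)
    refine Matrix.ext fun i j => ?_
    have hmem : ∀ u ∈ (maximalIdeal O ^ k) • (⊤ : Submodule O (eigLat χ)),
        (eigBasis χ).repr u i ∈ maximalIdeal O ^ k := fun u hu => by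
      refine Submodule.smul_induction_on hu (fun a ha w _ => ?_) fun x y hx hy => ?_
      · rw [map_smul, Finsupp.smul_apply, smul_eq_mul]; exact Ideal.mul_mem_right _ _ ha
      · rw [map_add, Finsupp.add_apply]; exact Ideal.add_mem _ hx hy
    have h := hmem _ (h1 g hg1 (eigBasis χ j))
    rw [map_sub, Finsupp.sub_apply, ← Ideal.Quotient.eq] at h
    show Ideal.Quotient.mk _ (eigMat ι χ g i j) = (1 : Matrix (Fin 2) (Fin 2) _) i j
    rw [eigMat_apply, LinearMap.toMatrix_apply, h, Module.Basis.repr_self, Finsupp.single_apply,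
      Matrix.one_apply]
    by_cases hij : i = j <;> simp [hij, eq_comm]
  · have hg2 : ∀ x ∈ L2, g x = x := fun x hx =>
      ((IntermediateField.mem_fixingSubgroup_iff _ _).mp hg) x (le_sup_right (b := L2) hx)
    rw [← map_one (Ideal.Quotient.mk (maximalIdeal O ^ k)), Ideal.Quotient.eq, ← map_one ι,
      ← map_sub]
    exact map_mem_pow ι hpm (h2 g hg2)

/-- Either the determinant is cyclotomic or the matrix is scalar. -/
theorem det_eq_or_scalar (g : GQ) :
    (eigMat ι χ g).det = ι (padCyclo p g) ∨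
      (eigMat ι χ g 0 1 = 0 ∧ eigMat ι χ g 1 0 = 0 ∧ eigMat ι χ g 0 0 = eigMat ι χ g 1 1) := by
  have key : ∀ k, (eigMat ι χ g).det - ι (padCyclo p g) ∈ maximalIdeal O ^ k ∨
      (eigMat ι χ g 0 1 ∈ maximalIdeal O ^ k ∧ eigMat ι χ g 1 0 ∈ maximalIdeal O ^ k ∧
        eigMat ι χ g 0 0 - eigMat ι χ g 1 1 ∈ maximalIdeal O ^ k) := by
    intro k
    obtain ⟨L, hL, hfix⟩ := eigMat_continuous ι χ hpm k
    have := hL
    obtain ⟨q, A, σ, j, -, hq, hqS, hA, hσ, -, hgσ, -⟩ :=
      GaloisBasic.exists_frobenius_pow_congr L g (insert p N.primeFactors)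
    rw [Finset.mem_insert, not_or, Nat.mem_primeFactors] at hqS
    have hqN : ¬ q ∣ N := fun h => hqS.2 ⟨hq, h, NeZero.ne N⟩
    set mk := Ideal.Quotient.mk (maximalIdeal O ^ k)
    set Rk := mk.mapMatrix.toMonoidHom.comp (eigMat ι χ)
    have hR : Rk g = Rk (σ ^ j) := by
      rw [show g = σ ^ j * ((σ ^ j)⁻¹ * g) by group, map_mul, (hfix _ hgσ).1, mul_one]
    have hC : mk (ι (padCyclo p g)) = mk (ι (padCyclo p (σ ^ j))) := by
      rw [show g = σ ^ j * ((σ ^ j)⁻¹ * g) by group, map_mul, map_mul, map_mul, (hfix _ hgσ).2,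
        mul_one]
    have hent : ∀ a b, mk (eigMat ι χ g a b) = mk (eigMat ι χ (σ ^ j) a b) :=
      fun a b => congrFun (congrFun hR a) b
    rcases det_eq_or_scalar_of_quadratic _ (eigMat_quadratic ι χ hq hqN hqS.1 hA hσ) with hd | hs
    · left
      rw [← Ideal.Quotient.eq]
      show mk _ = mk _
      calc mk (eigMat ι χ g).det = (mk.mapMatrix (eigMat ι χ (σ ^ j))).det := by
            rw [RingHom.map_det, show mk.mapMatrix (eigMat ι χ g) =
              mk.mapMatrix (eigMat ι χ (σ ^ j)) from hR]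
        _ = mk (ι (padCyclo p g)) := by
            rw [← RingHom.map_det, map_pow, Matrix.det_pow, hd, hC, map_pow (padCyclo p),
              map_pow ι, padCyclo_frobenius p hq hqS.1 hA hσ, map_natCast]
    · right
      have hsc : eigMat ι χ σ = (eigMat ι χ σ 0 0) • (1 : Matrix (Fin 2) (Fin 2) O) := by
        refine Matrix.ext fun a b => ?_
        fin_cases a <;> fin_cases b <;> simp [hs.1, hs.2.1, hs.2.2]
      have hj : eigMat ι χ (σ ^ j) = (eigMat ι χ σ 0 0) ^ j • (1 : Matrix (Fin 2) (Fin 2) O) := by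
        rw [map_pow, hsc, _root_.smul_pow, one_pow]
        simp
      refine ⟨?_, ?_, ?_⟩
      · rw [← Ideal.Quotient.eq_zero_iff_mem, hent, hj]; simp
      · rw [← Ideal.Quotient.eq_zero_iff_mem, hent, hj]; simp
      · rw [← Ideal.Quotient.eq, hent, hent, hj]; simp
  have hzero : ∀ x : O, (∀ k, x ∈ maximalIdeal O ^ k) → x = 0 := fun x hx => by
    rw [← Ideal.mem_bot, ← Ideal.iInf_pow_eq_bot_of_isLocalRing (maximalIdeal O)
      (maximalIdeal.isMaximal O).ne_top, Ideal.mem_iInf]
    exact hx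
  by_cases hA : ∀ k, (eigMat ι χ g).det - ι (padCyclo p g) ∈ maximalIdeal O ^ k
  · exact Or.inl (sub_eq_zero.mp (hzero _ hA))
  · right
    push Not at hA
    obtain ⟨n0, hn0⟩ := hA
    have hb : ∀ k, eigMat ι χ g 0 1 ∈ maximalIdeal O ^ k ∧ eigMat ι χ g 1 0 ∈ maximalIdeal O ^ k ∧
        eigMat ι χ g 0 0 - eigMat ι χ g 1 1 ∈ maximalIdeal O ^ k := fun k => by
      rcases key (max k n0) with h | ⟨h1, h2, h3⟩
      · exact absurd (Ideal.pow_le_pow_right (le_max_right _ _) h) hn0
      · have hle := Ideal.pow_le_pow_right (I := maximalIdeal O) (le_max_left k n0)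
        exact ⟨hle h1, hle h2, hle h3⟩
    exact ⟨hzero _ fun k => (hb k).1, hzero _ fun k => (hb k).2.1,
      sub_eq_zero.mp (hzero _ fun k => (hb k).2.2)⟩

end Continuity

theorem eigMat_complexConjugation :
    eigMat ι χ complexConjugation * eigMat ι χ complexConjugation = 1 ∧
      eigMat ι χ complexConjugation ≠ 1 ∧ eigMat ι χ complexConjugation ≠ -1 := by
  refine ⟨by rw [← map_mul, complexConjugation_mul_self, map_one], ?_⟩
  suffices H : ∀ e : ℤ, e = 1 ∨ e = -1 → eigMat ι χ complexConjugation ≠ (e : O) • 1 by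
    exact ⟨by simpa using H 1 (Or.inl rfl), by simpa using H (-1) (Or.inr rfl)⟩
  intro e he h
  set K := FractionRing O
  obtain ⟨v, hv, hne⟩ := exists_inv_ne ((algebraMap O K).comp χ) (ε := -e)
    (by rcases he with rfl | rfl <;> simp)
  obtain ⟨b, w, hb, hw, hwv⟩ := exists_smul_eq_of_mem χ hv
  have h1 : eigEnd ι χ complexConjugation = (e : O) • 1 := by
    apply (LinearMap.toMatrixAlgEquiv (eigBasis χ)).injective
    rw [map_smul, map_one]
    exact h
  have h2 := congrArg Subtype.val (LinearMap.congr_fun h1 ⟨w, hw⟩)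
  rw [coe_eigEnd, galMat_complexConjugation] at h2
  have h3 : (invMat N).map (Int.cast : ℤ → O) *ᵥ w = -((e : O) • w) := by
    rw [← invMat_map ι]
    have h2' : (-((invMat N).map (Int.cast : ℤ → ℤ_[p]))).map ι *ᵥ w = (e : O) • w := h2
    rw [Matrix.map_neg ι (map_neg ι), Matrix.neg_mulVec] at h2'
    rw [← h2', neg_neg]
  refine hne ?_
  have hb' : algebraMap O K b ≠ 0 := fun h0 =>
    hb (IsFractionRing.injective O K (by rw [h0, map_zero]))
  refine smul_right_injective _ hb' ?_
  show algebraMap O K b • _ = algebraMap O K b • _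
  rw [← Matrix.mulVec_smul, ← hwv, ← invMat_map (algebraMap O K),
    show ((invMat N).map (Int.cast : ℤ → O)).map (algebraMap O K) *ᵥ (algebraMap O K ∘ w) =
      algebraMap O K ∘ ((invMat N).map (Int.cast : ℤ → O) *ᵥ w) from
      funext fun i => (RingHom.map_mulVec (algebraMap O K) _ w i).symm, h3, smul_comm, ← hwv]
  funext i
  simp
  ring

variable (hpm : (p : O) ∈ maximalIdeal O)
include hpm

/-- **The determinant is the cyclotomic character.** -/
theorem det_eigMat (g : GQ) : (eigMat ι χ g).det = ι (padCyclo p g) := by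
  obtain ⟨hc2, hc1, hcm⟩ := eigMat_complexConjugation ι χ
  set C := eigMat ι χ complexConjugation
  have e00 := congrFun (congrFun hc2 0) 0
  have e01 := congrFun (congrFun hc2 0) 1
  have e10 := congrFun (congrFun hc2 1) 0
  have e11 := congrFun (congrFun hc2 1) 1
  simp [Matrix.mul_apply, Fin.sum_univ_two] at e00 e01 e10 e11
  have hns : ¬(C 0 1 = 0 ∧ C 1 0 = 0 ∧ C 0 0 = C 1 1) := fun ⟨h1, h2, h3⟩ => by
    rw [h1, zero_mul, add_zero] at e00
    rcases mul_self_eq_one_iff.mp e00 with h | h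
    · exact hc1 (Matrix.ext fun a b => by fin_cases a <;> fin_cases b <;> simp [h1, h2, ← h3, h])
    · exact hcm (Matrix.ext fun a b => by fin_cases a <;> fin_cases b <;> simp [h1, h2, ← h3, h])
  have hCdet : C.det = -1 := by
    have hc := (det_eq_or_scalar ι χ hpm complexConjugation).resolve_right hns
    rw [hc, padCyclo_complexConjugation, map_neg, map_one]
  by_contra hne
  obtain ⟨g1, g2, g3⟩ := (det_eq_or_scalar ι χ hpm g).resolve_left hne
  rcases det_eq_or_scalar ι χ hpm (g * complexConjugation) with h | ⟨h1, h2, h3⟩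
  · rw [map_mul, Matrix.det_mul, hCdet, map_mul (padCyclo p), map_mul ι,
      padCyclo_complexConjugation, map_neg, map_one] at h
    exact hne (by linear_combination -h)
  · rw [map_mul] at h1 h2 h3
    simp only [Matrix.mul_apply, Fin.sum_univ_two, g1, g2, zero_mul, add_zero, zero_add] at h1 h2 h3
    rw [← g3] at h2 h3
    have hg0 : eigMat ι χ g 0 0 ≠ 0 := fun h0 => by
      have hu : IsUnit (eigMat ι χ g).det :=
        (((Group.isUnit g).map (eigMat ι χ)).map Matrix.detMonoidHom)
      rw [Matrix.det_fin_two, g1, h0] at hu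
      simp at hu
    exact hns ⟨(mul_eq_zero.mp h1).resolve_left hg0, (mul_eq_zero.mp h2).resolve_left hg0,
      mul_left_cancel₀ hg0 h3⟩

/-- The representation attached to an eigensystem. -/
def eigRep : GaloisRepAdic O where
  V := eigLat χ
  finrank_eq := eigLat_finrank χ
  ρ := eigEnd ι χ
  isAdicContinuous := eigEnd_isAdicContinuous ι χ hpm

/-- The characteristic polynomial is `X² - tr X + χ_cyc`. -/
theorem charpoly_eigEnd (g : GQ) :
    LinearMap.charpoly (eigEnd ι χ g) =
      X ^ 2 - C (eigMat ι χ g).trace * X + C (ι (padCyclo p g)) := by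
  rw [← LinearMap.charpoly_toMatrix _ (eigBasis χ), Matrix.charpoly_fin_two, ← eigMat_apply,
    det_eigMat ι χ hpm g]

/-- At a Frobenius of a good prime the characteristic polynomial is `X² - a_ℓ X + ℓ`. -/
theorem charpoly_eigRep_frobenius {ℓ : ℕ} (hℓ : ℓ.Prime) (hℓN : ¬ ℓ ∣ N) (hℓp : ℓ ≠ p)
    {A : ValuationSubring (AlgebraicClosure ℚ)} (hA : A.LiesOverPrime ℓ) {g : GQ}
    (hg : A.IsFrobeniusAt g ℓ) :
    LinearMap.charpoly ((eigRep ι χ hpm).ρ g) =
      X ^ 2 - C (χ ⟨_, MF.heckeAt_mem hℓ (Set.notMem_empty ℓ)⟩) * X + C (ℓ : O) := by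
  have hd : (eigMat ι χ g).det = (ℓ : O) := by
    rw [det_eigMat ι χ hpm, padCyclo_frobenius p hℓ hℓp hA hg, map_natCast]
  show LinearMap.charpoly (eigEnd ι χ g) = _
  rw [charpoly_eigEnd ι χ hpm, padCyclo_frobenius p hℓ hℓp hA hg, map_natCast,
    trace_eq_of_quadratic (eigMat ι χ g) (Nat.cast_ne_zero.mpr hℓ.ne_zero) hd
      (eigMat_quadratic ι χ hℓ hℓN hℓp hA hg)]

/-- The representation is unramified at good primes. -/
theorem eigRep_unramified {ℓ : ℕ} (hℓ : ℓ.Prime) (hℓN : ¬ ℓ ∣ N) (hℓp : ℓ ≠ p) :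
    (eigRep ι χ hpm).IsUnramifiedAt ℓ := fun A hA σ hσ => LinearMap.ext fun v => Subtype.ext (by
  show (galMat p N σ).map ι *ᵥ (v.1 : Fin (parRank (Gamma0 N)) → O) = v.1
  rw [galMat_inertia p hℓ hℓN hℓp hA hσ, Matrix.map_one _ (map_zero ι) (map_one ι),
    Matrix.one_mulVec])

end FermatAgent.ES
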