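import Fermat.Agent.GaloisBasic.ValuationRing
import Fermat.Agent.MF.CoeffField
import Fermat.Agent.ES.Tate.EigenRep
import Fermat.Agent.ES.Tate.Extend

/-!
# Residual representations attached to eigensystems

An eigensystem of level `N` with values in an algebraically closed field of characteristic `p` lifts
to a complete discrete valuation ring (`exists_point_lifting`); reducing `eigMat` gives a residual
representation with cyclotomic determinant and the expected Frobenius polynomials, unramified at
`q ∤ N p`, which embeds in the reduction of the module of parabolic characters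
(`exists_residual_embedded`, injective by `residue_eigCoord_injective`). For a normalised eigenform
and a map of `integralClosure ℤ ℂ` to a field of characteristic `p` this is the attached residual
representation (`residualRep_of_eigenform`).
-/

set_option autoImplicit false

open Polynomial IsLocalRing CongruenceSubgroup TensorProduct
open scoped Matrix
open FermatAgent.Period (parRank)

noncomputable section

namespace FermatAgent.ES

/-- A maximal ideal of a finite torsion-free algebra over a domain `O` contains the kernel of an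
`O`-point with values in an algebraic closure of the fraction field. -/
theorem exists_algHom_ker_le (O : Type) [CommRing O] [IsDomain O] (B : Type) [CommRing B]
    [Algebra O B] [Module.Finite O B] [Module.IsTorsionFree O B] (m : Ideal B) [m.IsMaximal] :
    ∃ g : B →ₐ[O] AlgebraicClosure (FractionRing O), RingHom.ker g ≤ m := by
  obtain ⟨q, hqmin, hqm⟩ := Ideal.exists_minimalPrimes_le (I := (⊥ : Ideal B)) (J := m) bot_le
  have hqp : q.IsPrime := hqmin.1.1
  have hqO : q.comap (algebraMap O B) = ⊥ := by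
    rw [eq_bot_iff]
    intro x hx
    by_contra hx0
    refine Set.disjoint_left.mp (Ideal.disjoint_nonZeroDivisors_of_mem_minimalPrimes hqmin) hx ?_
    rw [SetLike.mem_coe, mem_nonZeroDivisors_iff_right]
    intro y hy
    rw [mul_comm, ← Algebra.smul_def] at hy
    exact (smul_eq_zero.mp hy).resolve_left hx0
  have hinj : Function.Injective (algebraMap O (B ⧸ q)) := by
    rw [injective_iff_map_eq_zero]
    intro x hx
    rw [IsScalarTower.algebraMap_apply O B (B ⧸ q), Ideal.Quotient.algebraMap_eq,
      Ideal.Quotient.eq_zero_iff_mem] at hx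
    exact (hqO ▸ (Ideal.mem_comap.mpr hx) : x ∈ (⊥ : Ideal O))
  obtain ⟨g, hg⟩ := exists_ringHom_extend hinj (algebraMap O (AlgebraicClosure (FractionRing O)))
  let ga : (B ⧸ q) →ₐ[O] AlgebraicClosure (FractionRing O) :=
    { g with commutes' := fun x => RingHom.congr_fun hg x }
  have hgker : RingHom.ker ga = ⊥ := by
    have : (RingHom.ker ga).IsPrime := RingHom.ker_isPrime _
    refine Ideal.eq_bot_of_comap_eq_bot (R := O) ?_
    rw [eq_bot_iff]
    intro x hx
    rw [Ideal.mem_comap, RingHom.mem_ker, AlgHom.commutes,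
      IsScalarTower.algebraMap_apply O (FractionRing O) (AlgebraicClosure (FractionRing O)),
      map_eq_zero] at hx
    exact IsFractionRing.injective O (FractionRing O) (hx.trans (map_zero _).symm)
  refine ⟨ga.comp (Ideal.Quotient.mkₐ O q), fun x hx => hqm ?_⟩
  have : Ideal.Quotient.mk q x ∈ RingHom.ker ga := RingHom.mem_ker.mpr (RingHom.mem_ker.mp hx)
  rwa [hgker, Ideal.mem_bot, Ideal.Quotient.eq_zero_iff_mem] at this

/-- A prime of a finite torsion-free algebra over a complete discrete valuation ring is the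
contraction of the maximal ideal along some point. -/
theorem exists_point_of_prime (O : Type) [CommRing O] [IsDomain O] [IsDiscreteValuationRing O]
    [IsAdicComplete (maximalIdeal O) O] [Finite (ResidueField O)] [CharZero O]
    (B : Type) [CommRing B] [Algebra O B] [Module.Finite O B] [Module.IsTorsionFree O B]
    (m : Ideal B) [m.IsMaximal] :
    ∃ (O'' : Type) (_ : CommRing O'') (_ : IsDomain O'') (_ : IsDiscreteValuationRing O'')
      (_ : IsAdicComplete (maximalIdeal O'') O'') (_ : Finite (ResidueField O'')) (_ : CharZero O'')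
      (ι : O →+* O'') (_ : IsLocalHom ι) (j : B →+* O''),
      j.comp (algebraMap O B) = ι ∧ (maximalIdeal O'').comap j = m := by
  classical
  set Ω := AlgebraicClosure (FractionRing O)
  obtain ⟨gB, hgB⟩ := exists_algHom_ker_le O B m
  obtain ⟨L, hL, hmem⟩ := exists_finite_subfield (F := FractionRing O) gB.toLinearMap
  let gL : B →ₐ[O] L :=
    { gB.toRingHom.codRestrict L hmem with
      commutes' := fun x => Subtype.ext (gB.commutes x) }
  obtain ⟨hdvr, hfinA, hloc, hcomp, hres, hlh⟩ := integralClosure_spec O (FractionRing O) L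
  set O'' := integralClosure O L
  have := hloc; have := hdvr; have := hcomp; have := hres; have := hlh; have := hfinA
  have : CharZero O'' :=
    charZero_of_injective_algebraMap (injective_algebraMap_integralClosure O (FractionRing O) L)
  let j : B →ₐ[O] O'' :=
    gL.codRestrict O'' fun t => (Algebra.IsIntegral.isIntegral t).map gL
  refine ⟨O'', inferInstance, inferInstance, hdvr, hcomp, hres, inferInstance, algebraMap O O'',
    hlh, j.toRingHom, RingHom.ext j.commutes, ?_⟩
  have hjker : RingHom.ker j.toRingHom ≤ m := by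
    intro x hx
    rw [RingHom.mem_ker] at hx
    have hx' : gB x = 0 := congrArg (fun z : O'' => ((z : L) : Ω)) hx
    exact hgB (RingHom.mem_ker.mpr hx')
  let : Algebra B O'' := j.toRingHom.toAlgebra
  have : IsScalarTower O B O'' := IsScalarTower.of_algebraMap_eq fun x => (j.commutes x).symm
  have : Algebra.IsIntegral B O'' := Algebra.IsIntegral.tower_top (R := O)
  obtain ⟨Q, -, hQ, hQm⟩ := Ideal.exists_ideal_over_prime_of_isIntegral m (⊥ : Ideal O'')
    (by rw [← RingHom.ker_eq_comap_bot]; exact hjker)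
  have hQmax : Q.IsMaximal :=
    Ideal.isMaximal_of_isIntegral_of_isMaximal_comap Q (hQm ▸ ‹m.IsMaximal›)
  rw [← IsLocalRing.eq_maximalIdeal hQmax]
  exact hQm

/-- The reduction of `p`-adic integers into a field of characteristic `p`. -/
def redHom (p : ℕ) [Fact p.Prime] (κ : Type) [Field κ] [CharP κ p] : ℤ_[p] →+* κ :=
  (ZMod.castHom (dvd_refl p) κ).comp PadicInt.toZMod

lemma ringHom_eq_redHom {p : ℕ} [Fact p.Prime] {κ : Type} [Field κ] [CharP κ p]
    (h : ℤ_[p] →+* κ) : h = redHom p κ := by
  refine RingHom.ext fun x => ?_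
  obtain ⟨n, hn⟩ : ∃ n : ℕ, x - (n : ℤ_[p]) ∈ maximalIdeal ℤ_[p] :=
    ⟨x.zmodRepr, (PadicInt.zmodRepr_spec x).2⟩
  rw [PadicInt.maximalIdeal_eq_span_p, Ideal.mem_span_singleton] at hn
  obtain ⟨y, hy⟩ := hn
  rw [eq_add_of_sub_eq hy]
  simp [map_natCast]

/-- **Lifting an eigensystem.** A homomorphism `θ` from a finite free `ℤ`-algebra to an
algebraically closed field of characteristic `p` is the reduction of a point `χ` with values in a
finite extension `O` of `ℤ_p`, the residue field of `O` embedded in the field. -/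
theorem exists_point_lifting (p : ℕ) [Fact p.Prime] {H : Type} [CommRing H] [Module.Finite ℤ H]
    [Module.Free ℤ H] {κ : Type} [Field κ] [IsAlgClosed κ] [CharP κ p] (θ : H →+* κ) :
    ∃ (O : Type) (_ : CommRing O) (_ : IsDomain O) (_ : IsDiscreteValuationRing O)
      (_ : IsAdicComplete (maximalIdeal O) O) (_ : Finite (ResidueField O)) (_ : CharZero O)
      (_ : ℤ_[p] →+* O) (χ : H →+* O) (ε : ResidueField O →+* κ),
      (p : O) ∈ maximalIdeal O ∧ ∀ t, ε (residue O (χ t)) = θ t := by
  classical
  let θB : ℤ_[p] ⊗[ℤ] H →ₐ[ℤ] κ :=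
    Algebra.TensorProduct.lift (redHom p κ).toIntAlgHom θ.toIntAlgHom fun _ _ => Commute.all _ _
  set B := ℤ_[p] ⊗[ℤ] H
  set m := RingHom.ker θB.toRingHom
  have : m.IsPrime := RingHom.ker_isPrime _
  have : m.IsMaximal := by
    refine Ideal.isMaximal_of_isIntegral_of_isMaximal_comap (R := ℤ_[p]) m ?_
    have : m.comap (algebraMap ℤ_[p] B) = maximalIdeal ℤ_[p] := by
      ext x
      rw [Ideal.mem_comap, RingHom.mem_ker, ← PadicInt.ker_toZMod, RingHom.mem_ker]
      show θB (x ⊗ₜ 1) = 0 ↔ _
      rw [Algebra.TensorProduct.lift_tmul, map_one, mul_one]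
      exact map_eq_zero_iff _ (ZMod.castHom_injective κ)
    rw [this]
    exact maximalIdeal.isMaximal _
  obtain ⟨O, _, _, _, _, _, _, ι, _, j, -, hjm⟩ := exists_point_of_prime ℤ_[p] B m
  have hp : (p : O) ∈ maximalIdeal O := by
    rw [← map_natCast ι]
    refine map_nonunit ι _ ?_
    rw [PadicInt.maximalIdeal_eq_span_p]
    exact Ideal.mem_span_singleton_self _
  have hker : RingHom.ker ((residue O).comp j) = m := by
    rw [← hjm]
    ext x
    rw [RingHom.mem_ker, Ideal.mem_comap]
    exact IsLocalRing.residue_eq_zero_iff _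
  let : Algebra (B ⧸ m) (ResidueField O) :=
    (Ideal.Quotient.lift m ((residue O).comp j)
      fun x hx => RingHom.mem_ker.mp (hker.symm ▸ hx)).toAlgebra
  let : Field (B ⧸ m) := Ideal.Quotient.field m
  have : Module.Finite (B ⧸ m) (ResidueField O) := Module.Finite.of_finite
  have : Algebra.IsIntegral (B ⧸ m) (ResidueField O) := Algebra.IsIntegral.of_finite _ _
  obtain ⟨ε, hε⟩ := exists_ringHom_extend
    (algebraMap (B ⧸ m) (ResidueField O)).injective (RingHom.kerLift θB.toRingHom)
  refine ⟨O, inferInstance, inferInstance, inferInstance, inferInstance, inferInstance,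
    inferInstance, ι, j.comp (Algebra.TensorProduct.includeRight (R := ℤ) (A := ℤ_[p])
      (B := H)).toRingHom, ε, hp, fun t => ?_⟩
  refine (RingHom.congr_fun hε (Ideal.Quotient.mk m ((1 : ℤ_[p]) ⊗ₜ t))).trans ?_
  show θB ((1 : ℤ_[p]) ⊗ₜ t) = θ t
  rw [Algebra.TensorProduct.lift_tmul, map_one, one_mul]
  rfl

/-- The coordinates of the basis of the eigenlattice. -/
def eigCoord {N : ℕ} [NeZero N] {O : Type} [CommRing O] [IsDomain O] [IsDiscreteValuationRing O]
    [CharZero O] (χ : CuspForm.heckeAlgebra N 2 ∅ →+* O) :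
    Matrix (Fin (parRank (Gamma0 N))) (Fin 2) O :=
  Matrix.of fun i j => (eigBasis χ j).1 i

section

variable {p : ℕ} [Fact p.Prime] {N : ℕ} [NeZero N] {O : Type} [CommRing O] [IsDomain O]
  [IsDiscreteValuationRing O] [CharZero O] (ι : ℤ_[p] →+* O)
  (χ : CuspForm.heckeAlgebra N 2 ∅ →+* O)

lemma galMat_mul_eigCoord (g : GQ) :
    (galMat p N g).map ι * eigCoord χ = eigCoord χ * eigMat ι χ g := by
  refine Matrix.ext fun i j => ?_
  have h : ((eigEnd ι χ g (eigBasis χ j) : eigLat χ) : Fin (parRank (Gamma0 N)) → O) i =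
      ∑ l, eigMat ι χ g l j * (eigBasis χ l).1 i := by
    conv_lhs => rw [← (eigBasis χ).sum_repr (eigEnd ι χ g (eigBasis χ j))]
    simp only [Submodule.coe_sum, Submodule.coe_smul, Finset.sum_apply, Pi.smul_apply, smul_eq_mul,
      eigMat_apply, LinearMap.toMatrix_apply]
  rw [coe_eigEnd] at h
  rw [Matrix.mul_apply, Matrix.mul_apply]
  simp only [eigCoord, Matrix.of_apply]
  refine h.trans (Finset.sum_congr rfl fun l _ => mul_comm _ _)

/-- The coordinates of the basis stay independent modulo the maximal ideal. -/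
lemma residue_eigCoord_injective :
    Function.Injective ((eigCoord χ).map (residue O)).mulVec := by
  intro a b hab
  rw [← sub_eq_zero] at hab ⊢
  rw [← Matrix.mulVec_sub] at hab
  obtain ⟨π, hπ⟩ := IsDiscreteValuationRing.exists_irreducible O
  choose c hc using fun j => residue_surjective (R := O) ((a - b) j)
  have hv : ∀ i, π ∣ ((c 0 • eigBasis χ 0 + c 1 • eigBasis χ 1 : eigLat χ) :
      Fin (parRank (Gamma0 N)) → O) i := fun i => by
    rw [← Ideal.mem_span_singleton, ← hπ.maximalIdeal_eq, ← residue_eq_zero_iff]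
    have h := congrFun hab i
    simp only [Matrix.mulVec, dotProduct, Matrix.map_apply, eigCoord, Matrix.of_apply,
      Fin.sum_univ_two, Pi.zero_apply, ← hc] at h
    simp only [Submodule.coe_add, Submodule.coe_smul, Pi.add_apply, Pi.smul_apply, smul_eq_mul,
      map_add, map_mul]
    linear_combination h
  choose w hw using hv
  have hwv : ((c 0 • eigBasis χ 0 + c 1 • eigBasis χ 1 : eigLat χ) :
      Fin (parRank (Gamma0 N)) → O) = π • w := funext hw
  have hwL : w ∈ eigLat χ := (mem_eigLat χ).mpr fun t => by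
    have h1 := (mem_eigLat χ).mp (c 0 • eigBasis χ 0 + c 1 • eigBasis χ 1).2 t
    rw [hwv, Matrix.mulVec_smul, smul_comm] at h1
    exact smul_right_injective _ hπ.ne_zero h1
  have e : c 0 • eigBasis χ 0 + c 1 • eigBasis χ 1 = π • (⟨w, hwL⟩ : eigLat χ) :=
    Subtype.ext hwv
  funext j
  rw [Pi.zero_apply, ← hc j, residue_eq_zero_iff, hπ.maximalIdeal_eq, Ideal.mem_span_singleton]
  refine ⟨(eigBasis χ).repr ⟨w, hwL⟩ j, ?_⟩
  have h := congrArg (fun v => (eigBasis χ).repr v j) e
  simp only [map_add, map_smul, Finsupp.add_apply, Finsupp.smul_apply, smul_eq_mul,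
    Module.Basis.repr_self] at h
  rw [← h]
  fin_cases j <;> simp

variable {κ : Type} [Field κ] (ε : ResidueField O →+* κ)

/-- The coordinates of the basis stay independent in any field containing the residue field. -/
lemma map_eigCoord_mulVec_injective :
    Function.Injective ((eigCoord χ).map (ε.comp (residue O))).mulVec := by
  obtain ⟨l, hl⟩ := LinearMap.exists_leftInverse_of_injective
    ((eigCoord χ).map (residue O)).mulVecLin
    (LinearMap.ker_eq_bot.mpr (residue_eigCoord_injective χ))
  have hl' : LinearMap.toMatrix' l * (eigCoord χ).map (residue O) = 1 := by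
    have h := congrArg LinearMap.toMatrix' hl
    rwa [LinearMap.toMatrix'_comp, LinearMap.toMatrix'_id, ← Matrix.toLin'_apply',
      LinearMap.toMatrix'_toLin'] at h
  have hL : (LinearMap.toMatrix' l).map ε * (eigCoord χ).map (ε.comp (residue O)) = 1 := by
    rw [show (eigCoord χ).map (ε.comp (residue O)) = ((eigCoord χ).map (residue O)).map ε from
      (Matrix.map_map).symm, ← Matrix.map_mul, hl', Matrix.map_one _ (map_zero ε) (map_one ε)]
  intro a b hab
  have h := congrArg (fun v => (LinearMap.toMatrix' l).map ε *ᵥ v) hab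
  simp only [Matrix.mulVec_mulVec, hL, Matrix.one_mulVec] at h
  exact h

/-- The reduced representation on the eigenlattice factors through a finite level. -/
lemma eigMat_residue_finiteLevel
    (hp : (p : O) ∈ maximalIdeal O) :
    ∃ L : IntermediateField ℚ (AlgebraicClosure ℚ), FiniteDimensional ℚ L ∧
      ∀ σ : GQ, (∀ x ∈ L, σ x = x) → (eigMat ι χ σ).map (ε.comp (residue O)) = 1 := by
  obtain ⟨L, hL, hfix⟩ := eigMat_continuous ι χ hp 1
  refine ⟨L, hL, fun σ hσ => Matrix.ext fun a b => ?_⟩
  have h := congrFun (congrFun (hfix σ ((IntermediateField.mem_fixingSubgroup_iff _ _).mpr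
    hσ)).1 a) b
  have h' : eigMat ι χ σ a b - (1 : Matrix (Fin 2) (Fin 2) O) a b ∈ maximalIdeal O := by
    rw [← pow_one (maximalIdeal O), ← Ideal.Quotient.eq]
    refine h.trans ?_
    rw [Matrix.one_apply, Matrix.one_apply, apply_ite (Ideal.Quotient.mk _), map_one, map_zero]
  rw [← residue_eq_zero_iff, map_sub, sub_eq_zero] at h'
  show ε (residue O (eigMat ι χ σ a b)) = _
  rw [h', Matrix.one_apply, Matrix.one_apply, apply_ite (residue O), map_one, map_zero,
    apply_ite ε, map_one, map_zero]

end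

/-- **The residual representation of an eigensystem** `θ` modulo `p` of level `N`: a
two-dimensional representation, embedded equivariantly in the lattice of parabolic classes reduced
modulo `p`, of determinant the cyclotomic character, unramified outside `N p`, in which Frobenius
at `ℓ` has characteristic polynomial `X² - θ(T_ℓ) X + ℓ`. -/
theorem exists_residual_embedded (p : ℕ) [Fact p.Prime] (N : ℕ) [NeZero N] {κ : Type} [Field κ]
    [IsAlgClosed κ] [CharP κ p] (θ : CuspForm.heckeAlgebra N 2 ∅ →+* κ) :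
    ∃ (ρ : ResidualGaloisRep κ) (U : ρ.V →ₗ[κ] (Fin (parRank (Gamma0 N)) → κ)),
      Function.Injective U ∧
      (∀ (g : GQ) (v : ρ.V), U (ρ.ρ g v) = (galMat p N g).map (redHom p κ) *ᵥ U v) ∧
      (∀ g : GQ, LinearMap.det (ρ.ρ g) = redHom p κ (padCyclo p g)) ∧
      (∀ (ℓ : ℕ) (hℓ : ℓ.Prime), ¬ ℓ ∣ N → ℓ ≠ p →
        ∀ A : ValuationSubring (AlgebraicClosure ℚ), A.LiesOverPrime ℓ →
          ∀ σ : GQ, A.IsFrobeniusAt σ ℓ →
            LinearMap.charpoly (ρ.ρ σ) =
              X ^ 2 - C (θ ⟨_, MF.heckeAt_mem hℓ (Set.notMem_empty ℓ)⟩) * X + C (ℓ : κ)) ∧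
      ∀ q : ℕ, q.Prime → ¬ q ∣ N → q ≠ p → ρ.IsUnramifiedAt q := by
  classical
  have : Module.Finite ℤ (CuspForm.heckeAlgebra N 2 ∅) := MF.moduleFinite_heckeAlgebra N 2 ∅
  have : Module.Free ℤ (CuspForm.heckeAlgebra N 2 ∅) := inferInstance
  obtain ⟨O, _, _, _, _, _, _, ι, χ, ε, hp, hθ'⟩ := exists_point_lifting p θ
  let fR : O →+* κ := ε.comp (residue O)
  have hθ : ∀ t, fR (χ t) = θ t := hθ'
  have hι : fR.comp ι = redHom p κ := ringHom_eq_redHom _
  obtain ⟨Lf, hLf, hfix⟩ := eigMat_residue_finiteLevel ι χ ε hp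
  let M : GQ →* Matrix (Fin 2) (Fin 2) κ := fR.mapMatrix.toMonoidHom.comp (eigMat ι χ)
  let ρ : ResidualGaloisRep κ :=
    { V := Fin 2 → κ
      finrank_eq := Module.finrank_fin_fun κ
      ρ := (Matrix.toLinAlgEquiv' (R := κ) (n := Fin 2)).toAlgHom.toRingHom.toMonoidHom.comp M
      factorsThroughFiniteLevel := ⟨Lf, hLf, fun σ hσ => by
        show Matrix.toLinAlgEquiv' (M σ) = 1
        rw [show M σ = 1 from hfix σ hσ, map_one]⟩ }
  let Bκ : Matrix (Fin (parRank (Gamma0 N))) (Fin 2) κ := (eigCoord χ).map fR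
  let U : ρ.V →ₗ[κ] (Fin (parRank (Gamma0 N)) → κ) := Bκ.mulVecLin
  have hU : Function.Injective U := map_eigCoord_mulVec_injective χ ε
  have hequiv : ∀ (g : GQ) (v : ρ.V), U (ρ.ρ g v) = (galMat p N g).map (redHom p κ) *ᵥ U v := by
    intro g v
    show Bκ *ᵥ (M g *ᵥ v) = (galMat p N g).map (redHom p κ) *ᵥ (Bκ *ᵥ v)
    rw [Matrix.mulVec_mulVec, Matrix.mulVec_mulVec, ← hι]
    congr 1
    show (eigCoord χ).map fR * (eigMat ι χ g).map fR = _ * (eigCoord χ).map fR
    rw [show (galMat p N g).map (fR.comp ι) = ((galMat p N g).map ι).map fR from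
      (Matrix.map_map).symm, ← Matrix.map_mul, ← Matrix.map_mul, galMat_mul_eigCoord]
  have hdet : ∀ g : GQ, LinearMap.det (ρ.ρ g) = redHom p κ (padCyclo p g) := fun g => by
    show LinearMap.det (Matrix.toLin' (M g)) = _
    rw [LinearMap.det_toLin', ← hι]
    show (fR.mapMatrix (eigMat ι χ g)).det = _
    rw [← RingHom.map_det, det_eigMat ι χ hp]
    rfl
  refine ⟨ρ, U, hU, hequiv, hdet, ?_, ?_⟩
  · intro ℓ hℓ hℓN hℓp A hA σ hσ
    have hch : (eigMat ι χ σ).charpoly =
        X ^ 2 - C (χ ⟨_, MF.heckeAt_mem hℓ (Set.notMem_empty ℓ)⟩) * X + C (ℓ : O) := by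
      rw [eigMat_apply, LinearMap.charpoly_toMatrix]
      exact charpoly_eigRep_frobenius ι χ hp hℓ hℓN hℓp hA hσ
    show LinearMap.charpoly (Matrix.toLin' (M σ)) = _
    rw [Matrix.charpoly_toLin']
    show ((eigMat ι χ σ).map fR).charpoly = _
    rw [Matrix.charpoly_map, hch]
    simp [hθ, map_natCast]
  · intro q hq hqN hqp A hA σ hσ
    refine LinearMap.ext fun v => hU ?_
    rw [hequiv, galMat_inertia p hq hqN hqp hA hσ,
      Matrix.map_one _ (map_zero _) (map_one _), Matrix.one_mulVec]
    rfl

/-- The kernel quotient of a homomorphism from the algebraic integers is algebraically closed. -/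
theorem isAlgClosed_quotient_integralClosure (m : Ideal (integralClosure ℤ ℂ)) [m.IsMaximal] :
    letI := Ideal.Quotient.field m
    IsAlgClosed (integralClosure ℤ ℂ ⧸ m) := by
  let := Ideal.Quotient.field m
  exact isAlgClosed_of_surjective (K := ℂ) Subtype.val_injective
    (fun z hz => ⟨⟨z, isIntegral_trans (R := ℤ) z hz⟩, rfl⟩) (Ideal.Quotient.mk m)
    Ideal.Quotient.mk_surjective

/-- The kernel of a homomorphism from an integral extension of `ℤ` to a field of characteristic
`p` is maximal. -/
theorem isMaximal_ker_of_charP {p : ℕ} (hp : p.Prime) {A : Type*} [CommRing A]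
    [Algebra.IsIntegral ℤ A] {k : Type*} [Field k] [CharP k p] (φ : A →+* k) :
    (RingHom.ker φ).IsMaximal := by
  have : (RingHom.ker φ).IsPrime := RingHom.ker_isPrime _
  refine Ideal.isMaximal_of_isIntegral_of_isMaximal_comap (R := ℤ) _ ?_
  have : (RingHom.ker φ).comap (algebraMap ℤ A) = Ideal.span {(p : ℤ)} := by
    ext z
    rw [Ideal.mem_comap, RingHom.mem_ker, eq_intCast, map_intCast,
      CharP.intCast_eq_zero_iff k p, Ideal.mem_span_singleton]
  rw [this]
  exact PrincipalIdealRing.isMaximal_of_irreducible (Nat.prime_iff_prime_int.mp hp).irreducible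

/-- **The residual representation attached to an eigenform** `g` of weight two on `Γ₀(N)` and a
homomorphism `φ` from the algebraic integers to a field of characteristic `p`: Frobenius at
`ℓ ∤ N p` has characteristic polynomial `X² - φ(a_ℓ) X + ℓ`, and the representation is unramified
outside `N p`. -/
theorem residualRep_of_eigenform {N : ℕ} {g : CuspForm (CongruenceSubgroup.Gamma0 N) 2}
    (hg : g.IsNormalizedEigenform) {p : ℕ} (hp : p.Prime) {k : Type} [Field k] [CharP k p]
    (φ : integralClosure ℤ ℂ →+* k) :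
    ∃ ρ : ResidualGaloisRep k, ρ.IsAttachedTo g φ ∧
      ∀ ℓ : ℕ, ℓ.Prime → ¬ ℓ ∣ N * p → ρ.IsUnramifiedAt ℓ := by
  have : Fact p.Prime := ⟨hp⟩
  rcases Nat.eq_zero_or_pos N with rfl | hN
  · refine ⟨⟨Fin 2 → k, Module.finrank_fin_fun k, 1, ⊥, inferInstance, fun _ _ => rfl⟩,
      fun ℓ _ h => absurd (dvd_zero ℓ) h, fun ℓ _ h => absurd (by simp) h⟩
  have : NeZero N := ⟨hN.ne'⟩
  have hf := (MF.isEigen_iff_isNormalizedEigenform g).mpr hg
  have : Module.Finite ℤ (CuspForm.heckeAlgebra N 2 ∅) := MF.moduleFinite_heckeAlgebra N 2 ∅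
  let χ : CuspForm.heckeAlgebra N 2 ∅ →+* integralClosure ℤ ℂ :=
    (hf.char ∅).codRestrict (integralClosure ℤ ℂ) fun t =>
      map_isIntegral_int _ (Algebra.IsIntegral.isIntegral t)
  set m := RingHom.ker φ
  have : m.IsMaximal := isMaximal_ker_of_charP hp φ
  let : Field (integralClosure ℤ ℂ ⧸ m) := Ideal.Quotient.field m
  have : IsAlgClosed (integralClosure ℤ ℂ ⧸ m) := isAlgClosed_quotient_integralClosure m
  have : CharP (integralClosure ℤ ℂ ⧸ m) p :=
    (RingHom.charP_iff (RingHom.kerLift φ) (RingHom.kerLift_injective φ) p).mpr ‹_›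
  obtain ⟨ρ, -, -, -, -, hρ, hur⟩ := exists_residual_embedded p N ((Ideal.Quotient.mk m).comp χ)
  refine ⟨ρ.baseChangeAlong (RingHom.kerLift φ), ?_, ?_⟩
  · intro ℓ hℓ hℓN hℓk A hA σ hσ
    have hℓp : ℓ ≠ p := fun h => hℓk (by rw [h, CharP.cast_eq_zero])
    refine ⟨χ ⟨_, MF.heckeAt_mem hℓ (Set.notMem_empty ℓ)⟩, ?_, ?_⟩
    · exact hf.char_heckeAt hℓ (Set.notMem_empty ℓ)
    · let : Algebra (integralClosure ℤ ℂ ⧸ m) k := (RingHom.kerLift φ).toAlgebra
      show LinearMap.charpoly ((ρ.ρ σ).baseChange k) = _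
      rw [LinearMap.charpoly_baseChange, hρ ℓ hℓ hℓN hℓp A hA σ hσ]
      simp only [Polynomial.map_add, Polynomial.map_sub, Polynomial.map_mul, Polynomial.map_pow,
        map_X, map_C, map_natCast, Polynomial.map_natCast]
      rfl
  · intro ℓ hℓ hℓNp A hA σ hσ
    let : Algebra (integralClosure ℤ ℂ ⧸ m) k := (RingHom.kerLift φ).toAlgebra
    show (ρ.ρ σ).baseChange k = 1
    rw [hur ℓ hℓ (fun h => hℓNp (h.mul_right p))
      (fun h => hℓNp (h ▸ Dvd.intro_left N rfl)) A hA σ hσ, LinearMap.baseChange_one]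

end FermatAgent.ES
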