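import Fermat.Agent.ES.Tate.Module
import Fermat.Agent.ES.Tate.Cyclo
import Fermat.Agent.GaloisBasic.CharpolyDensity
import Fermat.Agent.GaloisBasic.ResidualMatrix
import Fermat.Prelude.Def_CuspForm_HeckeGaloisRepDatum
import Fermat.Agent.GaloisBasic.TracePairing

/-!
# Representations over Hecke algebras are unramified away from the level

`datum_unramified`: the representation of a `HeckeGaloisRepDatum` is unramified at primes `q ∉ S`,
if `S` contains `p` and the primes of `N`. Modulo each power of the maximal ideal its trace at `g`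
is read off from the operator `galTrace` on parabolic homomorphisms, by Frobenius approximation and
a Lucas recursion (`exists_hecke_galTrace_pow`) and a bound on divisibility in the anaemic Hecke
algebra (`exists_dvd_bound`). As `galTrace` does not see inertia at `q` (`galTrace_inertia_mul`),
neither does the trace; residual absolute irreducibility (`span_repMatrix_eq_top`) finishes.
-/

set_option autoImplicit false

open Polynomial IsLocalRing CongruenceSubgroup
open scoped Matrix
open FermatAgent.Period (parRank parMat parMatHom parHom parElt)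

noncomputable section

namespace FermatAgent.ES

/-- The cyclotomic character is trivial on inertia away from `p`. -/
theorem padCyclo_inertia (p : ℕ) [Fact p.Prime] {ℓ : ℕ} (hℓ : ℓ.Prime) (hℓp : ℓ ≠ p)
    {A : ValuationSubring (AlgebraicClosure ℚ)} (hA : A.LiesOverPrime ℓ) {g : GQ}
    (hg : g ∈ A.inertiaSubgroupIn ℚ) : padCyclo p g = 1 := by
  refine PadicInt.ext_of_toZModPow.mp fun k => ?_
  obtain ⟨ζ, hζ⟩ := exists_primitive_qbar p k
  rw [toZModPow_padCyclo_eq p (c := 1) hζ ?_, Nat.cast_one, map_one]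
  rw [pow_one]
  exact Mazur.inertia_fixes_rootsOfUnity hℓ hA
    (fun h => hℓp ((Nat.prime_dvd_prime_iff_eq hℓ (Fact.out : p.Prime)).mp (hℓ.dvd_of_dvd_pow h)))
    (pow_ne_zero _ (Fact.out : p.Prime).ne_zero) hg hζ.pow_eq_one

/-- The Hecke algebra acts faithfully on parabolic homomorphisms. -/
theorem parMatHom_injective (N : ℕ) [NeZero N] : Function.Injective (parMatHom N ∅) := by
  rw [injective_iff_map_eq_zero]
  intro t ht
  refine FermatAgent.Period.intAction_injective
    ((LinearMap.ext fun φ => ?_).trans (map_zero _).symm)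
  rw [FermatAgent.Period.eq_sum_parHomMem φ, map_sum, LinearMap.zero_apply]
  refine Finset.sum_eq_zero fun i _ => ?_
  rw [map_zsmul]
  refine smul_eq_zero_of_right _ ((FermatAgent.Period.eq_sum_parHomMem _).trans ?_)
  refine Finset.sum_eq_zero fun j _ => ?_
  rw [show (FermatAgent.Period.intAction N ∅ t (FermatAgent.Period.parHomMem _ i)).1
      (Additive.ofMul (parElt _ j)) = 0 from congrFun (congrFun ht j) i, zero_smul]

variable {N : ℕ} [NeZero N] {S : Set ℕ}

variable (N S) in
/-- The integral matrices of the anaemic Hecke algebra. -/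
def anMatHom : CuspForm.heckeAlgebra N 2 S →+*
    Matrix (Fin (parRank (Gamma0 N))) (Fin (parRank (Gamma0 N))) ℤ :=
  (parMatHom N ∅).comp
    (Subalgebra.inclusion (CuspForm.heckeAlgebra_mono (Set.empty_subset S))).toRingHom

/-- An operator divisible by a high power of `p` on the lattice is divisible by a high power of
`p` in the algebra. -/
theorem exists_dvd_bound (p : ℕ) : ∃ c : ℕ, ∀ k, c ≤ k → ∀ x : CuspForm.heckeAlgebra N 2 S,
    (∀ i j, (p : ℤ) ^ k ∣ anMatHom N S x i j) → ∃ y, x = p ^ (k - c) * y := by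
  let f : CuspForm.heckeAlgebra N 2 S →ₗ[ℤ]
      Matrix (Fin (parRank (Gamma0 N))) (Fin (parRank (Gamma0 N))) ℤ :=
    (anMatHom N S).toAddMonoidHom.toIntLinearMap
  obtain ⟨c, hc⟩ := Ideal.exists_pow_inf_eq_pow_smul (Ideal.span {(p : ℤ)}) (LinearMap.range f)
  refine ⟨c, fun k hk x hx => ?_⟩
  choose a ha using hx
  have hmem : f x ∈ Ideal.span {(p : ℤ)} ^ k • (⊤ : Submodule ℤ _) ⊓ LinearMap.range f := by
    refine ⟨?_, x, rfl⟩
    have : f x = (p : ℤ) ^ k • Matrix.of a := by
      ext i j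
      exact (ha i j).trans (by simp)
    rw [this, Ideal.span_singleton_pow]
    exact Submodule.smul_mem_smul (Ideal.mem_span_singleton_self _) Submodule.mem_top
  rw [hc k hk, Ideal.span_singleton_pow, Submodule.ideal_span_singleton_smul,
    Submodule.mem_smul_pointwise_iff_exists] at hmem
  obtain ⟨z, hz, hzx⟩ := hmem
  obtain ⟨y, rfl⟩ := hz.2
  refine ⟨y, ?_⟩
  have hinj : Function.Injective (anMatHom N S) := (parMatHom_injective N).comp
    (Subalgebra.inclusion_injective _)
  refine hinj ?_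
  rw [map_mul, map_pow, map_natCast]
  refine hzx.symm.trans ?_
  show (p : ℤ) ^ (k - c) • anMatHom N S y = _
  rw [zsmul_eq_mul, Int.cast_pow, Int.cast_natCast]

variable (p : ℕ) [Fact p.Prime]

local notation "MatP" => Matrix (Fin (parRank (Gamma0 N))) (Fin (parRank (Gamma0 N))) ℤ_[p]

variable (N) in
/-- The trace operator of a Galois element. -/
def galTrace (g : GQ) : MatP :=
  galMat p N g + algebraMap ℤ_[p] MatP (padCyclo p g) * galMat p N g⁻¹

theorem galTrace_inertia_mul {q : ℕ} (hq : q.Prime) (hqN : ¬ q ∣ N) (hqp : q ≠ p)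
    {A : ValuationSubring (AlgebraicClosure ℚ)} (hA : A.LiesOverPrime q) {τ : GQ}
    (hτ : τ ∈ A.inertiaSubgroupIn ℚ) (g : GQ) : galTrace N p (τ * g) = galTrace N p g := by
  rw [galTrace, galTrace, mul_inv_rev]
  simp only [map_mul, galMat_inertia p hq hqN hqp hA hτ,
    galMat_inertia p hq hqN hqp hA (inv_mem hτ),
    padCyclo_inertia p hq hqp hA hτ, one_mul, mul_one]

theorem lucas_step {R : Type} [Ring R] {G G' : R} (h : G * G' = 1) (h' : G' * G = 1) (l j : ℕ) :
    (G + l * G') * (G ^ (j + 1) + (l : R) ^ (j + 1) * G' ^ (j + 1)) -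
        l * (G ^ j + (l : R) ^ j * G' ^ j) =
      G ^ (j + 1 + 1) + (l : R) ^ (j + 1 + 1) * G' ^ (j + 1 + 1) := by
  have hc : ∀ n : ℕ, ∀ Z : R, Z * (l : R) ^ n = (l : R) ^ n * Z := fun n Z =>
    ((Nat.cast_commute l Z).pow_left n).eq.symm
  have e1 : G * ((l : R) ^ (j + 1) * G' ^ (j + 1)) = (l : R) ^ (j + 1) * G' ^ j := by
    rw [← mul_assoc, hc, mul_assoc, pow_succ' G', ← mul_assoc G, h, one_mul]
  have e2 : (l : R) * G' * G ^ (j + 1) = l * G ^ j := by
    rw [mul_assoc, pow_succ' G, ← mul_assoc G', h', one_mul]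
  have e3 : (l : R) * G' * ((l : R) ^ (j + 1) * G' ^ (j + 1)) =
      (l : R) ^ (j + 1 + 1) * G' ^ (j + 1 + 1) := by
    rw [mul_assoc (l : R), ← mul_assoc G', hc, mul_assoc, ← pow_succ' G', ← mul_assoc,
      ← pow_succ']
  have e4 : (l : R) * ((l : R) ^ j * G' ^ j) = (l : R) ^ (j + 1) * G' ^ j := by
    rw [← mul_assoc, ← pow_succ']
  rw [add_mul, mul_add, mul_add ((l : R) * G'), mul_add (l : R), e1, e2, e3, e4, ← pow_succ']
  abel

/-- The anaemic Hecke algebra sees the trace operator of powers of a Frobenius element. -/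
theorem exists_hecke_galTrace_pow {R : Type} [CommRing R] (π : CuspForm.heckeAlgebra N 2 S →+* R)
    (M : Matrix (Fin 2) (Fin 2) R) {ℓ : ℕ} (hℓ : ℓ.Prime) (hℓN : ¬ ℓ ∣ N) (hℓS : ℓ ∉ S)
    (hℓp : ℓ ≠ p) {A : ValuationSubring (AlgebraicClosure ℚ)} (hA : A.LiesOverPrime ℓ) {σ : GQ}
    (hσ : A.IsFrobeniusAt σ ℓ) (htr : M.trace = π (CuspForm.heckeAlgebra.T hℓ hℓN hℓS))
    (hdet : M.det = (ℓ : R)) :
    ∀ j : ℕ,
      (∃ x, (anMatHom N S x).map (Int.cast : ℤ → ℤ_[p]) = galTrace N p (σ ^ j) ∧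
        π x = (M ^ j).trace) ∧
      (∃ x, (anMatHom N S x).map (Int.cast : ℤ → ℤ_[p]) = galTrace N p (σ ^ (j + 1)) ∧
        π x = (M ^ (j + 1)).trace) := by
  let F : CuspForm.heckeAlgebra N 2 S →+* MatP :=
    (Int.castRingHom ℤ_[p]).mapMatrix.comp (anMatHom N S)
  set T := CuspForm.heckeAlgebra.T hℓ hℓN hℓS
  have hGG : galMat p N σ * galMat p N σ⁻¹ = 1 := by rw [← map_mul, mul_inv_cancel, map_one]
  have hFT : F T = galTrace N p σ := by
    have hincl : Subalgebra.inclusion (CuspForm.heckeAlgebra_mono (Set.empty_subset S)) T =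
        ⟨_, MF.heckeAt_mem hℓ (Set.notMem_empty ℓ)⟩ := Subtype.ext (by
      show CuspForm.heckeTLin 2 hℓ hℓN = MF.heckeAt N 2 hℓ
      exact (dif_neg hℓN).symm)
    have h := congrArg (fun Z => Z * galMat p N σ⁻¹) (galMat_congruence p hℓ hℓN hℓp hA hσ)
    simp only [add_mul, sub_mul, zero_mul, mul_assoc, hGG, mul_one] at h
    rw [galTrace, padCyclo_frobenius p hℓ hℓp hA hσ, map_natCast]
    show heckePadMat p _ = _
    rw [show (Subalgebra.inclusion (CuspForm.heckeAlgebra_mono (Set.empty_subset S))).toRingHom T =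
      _ from hincl]
    linear_combination (norm := abel) -h
  intro j
  induction j with
  | zero =>
    refine ⟨⟨2, ?_, ?_⟩, ⟨T, ?_, ?_⟩⟩
    · show F 2 = _
      rw [map_ofNat, pow_zero, galTrace, inv_one, map_one, map_one, map_one, one_mul,
        one_add_one_eq_two]
    · rw [map_ofNat, pow_zero, Matrix.trace_one, Fintype.card_fin, Nat.cast_ofNat]
    · show F T = _
      rw [hFT, zero_add, pow_one]
    · rw [zero_add, pow_one, htr]
  | succ j ih =>
    obtain ⟨⟨x, hx, hx'⟩, y, hy, hy'⟩ := ih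
    refine ⟨⟨y, hy, hy'⟩, T * y - (ℓ : CuspForm.heckeAlgebra N 2 S) * x, ?_, ?_⟩
    · show F (T * y - (ℓ : CuspForm.heckeAlgebra N 2 S) * x) = _
      rw [map_sub, map_mul, map_mul, map_natCast, hFT, show F y = _ from hy, show F x = _ from hx]
      simp only [galTrace, map_pow, ← inv_pow, padCyclo_frobenius p hℓ hℓp hA hσ, map_natCast]
      exact lucas_step hGG (by rw [← map_mul, inv_mul_cancel, map_one]) ℓ j
    · rw [map_sub, map_mul, map_mul, map_natCast, hx', hy', GaloisBasic.trace_pow_add_two,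
        htr, hdet]

/-- Nakayama form of Burnside: the matrices span over the local ring. -/
theorem span_repMatrix_eq_top {A : Type} [CommRing A] [IsLocalRing A] (ρ : GaloisRepAdic A)
    (h : ρ.residual.IsAbsolutelyIrreducible) :
    Submodule.span A (Set.range (GaloisBasic.repMatrix ρ)) = ⊤ := by
  obtain ⟨b', hb'⟩ := GaloisBasic.matrixIn_residual ρ (GaloisBasic.repBasis ρ)
  set k := ResidueField A
  let b := Module.finBasisOfFinrankEq k ρ.residual.V ρ.residual.finrank_eq
  let e : Matrix (Fin 2) (Fin 2) k ≃ₐ[k] Matrix (Fin 2) (Fin 2) k :=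
    (LinearMap.toMatrixAlgEquiv b).symm.trans (LinearMap.toMatrixAlgEquiv b')
  have he : ∀ g, e (GaloisBasic.residualMatrix ρ.residual g) =
      (GaloisBasic.repMatrix ρ g).map (residue A) := fun g => by
    refine Eq.trans ?_ (DFunLike.congr_fun hb' g)
    show LinearMap.toMatrixAlgEquiv b' ((LinearMap.toMatrixAlgEquiv b).symm
      (LinearMap.toMatrixAlgEquiv b (ρ.residual.ρ g))) = _
    rw [AlgEquiv.symm_apply_apply]
    rfl
  have hspan : Submodule.span k (Set.range fun g => (GaloisBasic.repMatrix ρ g).map (residue A)) =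
      ⊤ := by
    rw [← funext he, Set.range_comp' e, ← AlgEquiv.coe_toLinearEquiv, ← LinearEquiv.coe_coe,
      Submodule.span_image,
      GaloisBasic.span_range_eq_top_of_absIrr _ h, Submodule.map_top, LinearMap.range_eq_top]
    exact e.surjective
  set P := Submodule.span A (Set.range (GaloisBasic.repMatrix ρ))
  have hlift : ∀ Z : Matrix (Fin 2) (Fin 2) k, ∃ Y ∈ P, Y.map (residue A) = Z := by
    intro Z
    have hZ : Z ∈ Submodule.span k
        (Set.range fun g => (GaloisBasic.repMatrix ρ g).map (residue A)) :=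
          hspan ▸ Submodule.mem_top
    induction hZ using Submodule.span_induction with
    | mem x hx =>
      obtain ⟨g, rfl⟩ := hx
      exact ⟨_, Submodule.subset_span ⟨g, rfl⟩, rfl⟩
    | zero => exact ⟨0, P.zero_mem, Matrix.map_zero _ (map_zero _)⟩
    | add x y _ _ hx hy =>
      obtain ⟨X, hX, rfl⟩ := hx
      obtain ⟨Y, hY, rfl⟩ := hy
      exact ⟨X + Y, P.add_mem hX hY, Matrix.map_add _ (map_add _) X Y⟩
    | smul a x _ hx =>
      obtain ⟨X, hX, rfl⟩ := hx
      obtain ⟨a, rfl⟩ := residue_surjective a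
      exact ⟨a • X, P.smul_mem a hX, Matrix.map_smul' _ a X (map_mul _)⟩
  refine top_le_iff.mp (Submodule.le_of_le_smul_of_le_jacobson_bot Module.Finite.fg_top
    (maximalIdeal_le_jacobson ⊥) fun X _ => ?_)
  obtain ⟨Y, hY, hYX⟩ := hlift (X.map (residue A))
  refine Submodule.mem_sup.mpr ⟨Y, hY, X - Y, ?_, add_sub_cancel Y X⟩
  rw [Matrix.matrix_eq_sum_single (X - Y)]
  refine Submodule.sum_mem _ fun i _ => Submodule.sum_mem _ fun j _ => ?_
  rw [show Matrix.single i j ((X - Y) i j) = (X - Y) i j • Matrix.single i j (1 : A) by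
    rw [Matrix.smul_single, smul_eq_mul, mul_one]]
  refine Submodule.smul_mem_smul ?_ Submodule.mem_top
  rw [← IsLocalRing.residue_eq_zero_iff, Matrix.sub_apply, map_sub, sub_eq_zero]
  exact (congrFun (congrFun hYX i) j).symm

/-- The representation over the Hecke algebra is unramified outside `S`. -/
theorem datum_unramified {p N : ℕ} [NeZero N] {S : Finset ℕ} {O : Type} [CommRing O] [IsDomain O]
    [IsDiscreteValuationRing O] [IsAdicComplete (maximalIdeal O) O]
    {θ : CuspForm.heckeAlgebra N 2 (↑S : Set ℕ) →+* ResidueField O}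
    {T : Type} [CommRing T] [IsLocalRing T] [IsNoetherianRing T]
    [IsAdicComplete (maximalIdeal T) T] [Algebra O T] [IsLocalHom (algebraMap O T)]
    [Module.Finite O T] [Module.Free O T] (hp : p.Prime) (hpO : (p : O) ∈ maximalIdeal O)
    (hpS : p ∈ S) (hNS : ∀ q : ℕ, q.Prime → q ∣ N → q ∈ S)
    (H : CuspForm.HeckeGaloisRepDatum N (↑S : Set ℕ) O θ T)
    (q : ℕ) (hq : q.Prime) (hqS : q ∉ S) : H.ρ.IsUnramifiedAt q := by
  have : Fact p.Prime := ⟨hp⟩
  have hqN : ¬ q ∣ N := fun h => hqS (hNS q hq h)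
  have hqp : q ≠ p := fun h => hqS (h ▸ hpS)
  have hpT : (p : T) ∈ maximalIdeal T := by
    rw [← map_natCast (algebraMap O T)]
    exact map_nonunit (algebraMap O T) _ hpO
  intro A hA τ hτ
  set M := GaloisBasic.repMatrix H.ρ
  obtain ⟨c, hc⟩ := exists_dvd_bound (N := N) (S := (↑S : Set ℕ)) p
  have key : ∀ g n, (M (τ * g)).trace - (M g).trace ∈ maximalIdeal T ^ n := by
    intro g n
    set k := n + c
    obtain ⟨L₁, hL₁, h₁⟩ := galMat_continuous (N := N) p k
    obtain ⟨L₂, hL₂, h₂⟩ := padCyclo_continuous p k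
    obtain ⟨L₃, hL₃, h₃⟩ := GaloisBasic.repMatrix_map_eq_one H.ρ n
    have := hL₁; have := hL₂; have := hL₃
    let Q : Matrix (Fin (parRank (Gamma0 N))) (Fin (parRank (Gamma0 N))) ℤ_[p] →+*
        Matrix (Fin (parRank (Gamma0 N))) (Fin (parRank (Gamma0 N))) (ZMod (p ^ k)) :=
      (PadicInt.toZModPow k).mapMatrix
    have hz : ∀ x : ℤ_[p], (p : ℤ_[p]) ^ k ∣ x → PadicInt.toZModPow k x = 0 := fun x hx => by
      rw [← RingHom.mem_ker, PadicInt.ker_toZModPow, Ideal.mem_span_singleton]; exact hx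
    have ex : ∀ g : GQ, ∃ x, Q ((anMatHom N (↑S : Set ℕ) x).map Int.cast) = Q (galTrace N p g) ∧
        H.π x - (M g).trace ∈ maximalIdeal T ^ n := by
      intro g
      obtain ⟨ℓ, P, σ, j, -, hℓ, hℓS, hP, hσ, -, hgσ, -⟩ :=
        GaloisBasic.exists_frobenius_pow_congr (L₁ ⊔ L₂ ⊔ L₃) g S
      have hℓN : ¬ ℓ ∣ N := fun h => hℓS (hNS ℓ hℓ h)
      have hℓp : ℓ ≠ p := fun h => hℓS (h ▸ hpS)
      have hch : (M σ).charpoly =
          X ^ 2 - C (H.π (CuspForm.heckeAlgebra.T hℓ hℓN hℓS)) * X + C (ℓ : T) := by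
        rw [GaloisBasic.charpoly_repMatrix]; exact H.charpoly_frob ℓ hℓ hℓN hℓS P hP σ hσ
      have htr : (M σ).trace = H.π (CuspForm.heckeAlgebra.T hℓ hℓN hℓS) := by
        simp [Matrix.trace_eq_neg_charpoly_coeff, hch, coeff_X_pow]
      have hdet : (M σ).det = (ℓ : T) := by
        simp [Matrix.det_eq_sign_charpoly_coeff, hch]
      obtain ⟨⟨x, hx, hx'⟩, -⟩ :=
        exists_hecke_galTrace_pow p H.π (M σ) hℓ hℓN hℓS hℓp hP hσ htr hdet j
      obtain ⟨u, hu, rfl⟩ : ∃ u ∈ (L₁ ⊔ L₂ ⊔ L₃).fixingSubgroup, g = σ ^ j * u :=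
        ⟨_, hgσ, (mul_inv_cancel_left _ _).symm⟩
      have hmat : ∀ v ∈ (L₁ ⊔ L₂ ⊔ L₃).fixingSubgroup, Q (galMat p N v) = 1 := fun v hv => by
        have h0 : Q (galMat p N v - 1) = 0 := by
          ext a b
          exact hz _ (h₁ v (fun y hy => (IntermediateField.mem_fixingSubgroup_iff _ v).mp hv y
            ((le_sup_left.trans le_sup_left : L₁ ≤ L₁ ⊔ L₂ ⊔ L₃) hy)) a b)
        rwa [map_sub, map_one, sub_eq_zero] at h0
      have hcyc : PadicInt.toZModPow k (padCyclo p u) = 1 := by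
        have h0 := hz _ (h₂ u fun y hy => (IntermediateField.mem_fixingSubgroup_iff _ u).mp hu y
          ((le_sup_right.trans le_sup_left : L₂ ≤ L₁ ⊔ L₂ ⊔ L₃) hy))
        rwa [map_sub, map_one, sub_eq_zero] at h0
      have hQa : ∀ a : ℤ_[p], Q (algebraMap ℤ_[p] _ a) =
          algebraMap (ZMod (p ^ k)) _ (PadicInt.toZModPow k a) := fun a => by
        ext i l
        simp [Q, Matrix.algebraMap_matrix_apply, apply_ite (PadicInt.toZModPow k)]
      refine ⟨x, ?_, ?_⟩
      · rw [hx, galTrace, galTrace, mul_inv_rev]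
        simp only [map_add, map_mul, hQa, hmat u hu, hmat u⁻¹ (inv_mem hu), hcyc, mul_one, one_mul,
        map_one]
      · have hu3 := h₃ u (IntermediateField.fixingSubgroup_antitone le_sup_right hu)
        have ht : ∀ Z : Matrix (Fin 2) (Fin 2) T, Ideal.Quotient.mk (maximalIdeal T ^ n) Z.trace =
            (Z.map (Ideal.Quotient.mk (maximalIdeal T ^ n))).trace := fun Z => by
          simp [Matrix.trace_fin_two]
        rw [← Ideal.Quotient.eq_zero_iff_mem, map_sub, sub_eq_zero, hx', ← map_pow, map_mul,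
          ht, ht, Matrix.map_mul, hu3, mul_one]
    obtain ⟨x, hx, hx'⟩ := ex g
    obtain ⟨y, hy, hy'⟩ := ex (τ * g)
    rw [galTrace_inertia_mul p hq hqN hqp hA hτ, ← hx] at hy
    obtain ⟨z, hz'⟩ := hc k (Nat.le_add_left c n) (y - x) fun i j => by
      have h0 := congrFun (congrFun hy i) j
      simp only [Q, RingHom.mapMatrix_apply, Matrix.map_apply, map_intCast] at h0
      rw [map_sub, Matrix.sub_apply, ← Nat.cast_pow, ← ZMod.intCast_zmod_eq_zero_iff_dvd,
        Int.cast_sub, h0, sub_self]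
    have hdiff : H.π y - H.π x ∈ maximalIdeal T ^ n := by
      rw [← map_sub, hz', map_mul, map_pow, map_natCast, Nat.add_sub_cancel]
      exact Ideal.mul_mem_right _ _ (Ideal.pow_mem_pow hpT n)
    have := Ideal.add_mem _ (Ideal.sub_mem _ hdiff hy') hx'
    convert this using 1
    ring
  have htrace : ∀ g, ((M τ - 1) * M g).trace = 0 := fun g => by
    rw [sub_mul, one_mul, Matrix.trace_sub, ← map_mul, ← Ideal.mem_bot,
      ← Ideal.iInf_pow_eq_bot_of_isLocalRing (maximalIdeal T) (maximalIdeal.isMaximal T).ne_top,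
      Ideal.mem_iInf]
    exact key g
  have hM : M τ = 1 := sub_eq_zero.mp
    (GaloisBasic.eq_zero_of_trace_mul_span (span_repMatrix_eq_top H.ρ H.residual_absIrr) htrace)
  exact (LinearMap.toMatrixAlgEquiv (GaloisBasic.repBasis H.ρ)).injective
    (hM.trans (map_one _).symm)

end FermatAgent.ES
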