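import Fermat.Agent.ES.Tate.Padic
import Fermat.Agent.ES.Hecke.Commute
import Fermat.Agent.ES.Hecke.ComplexConj
import Fermat.Agent.Period.Eigenspace

/-!
# The `p`-adic representation on parabolic homomorphisms of `Γ₀(N)`
-/

set_option autoImplicit false

open UpperHalfPlane CongruenceSubgroup
open scoped MatrixGroups Matrix
open ModularCurve ModularCurve.Period
open FermatAgent.Period (parRank parElt parHom parabolicCoords parMat parMatHom parAction heckeOp
  invMat)

noncomputable section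

namespace FermatAgent.ES

theorem galChar_level {N : ℕ} [NeZero N] {Γ : Subgroup SL(2, ℤ)} (hG : GoodLevel N Γ) {n m : ℕ}
    [NeZero n] [NeZero m] (h : n ∣ m) (g : GQ) (φ : parGroup Γ n) (φ' : parGroup Γ m)
    (he : (φ' : Γ →* ℂˣ) = φ) :
    (galChar hG m g φ' : Γ →* ℂˣ) = galChar hG n g φ := by
  obtain ⟨q, rfl⟩ := h
  have hpow : ∀ χ : parGroup Γ n, (χ : Γ →* ℂˣ) ^ (n * q) = 1 := fun χ =>
    MonoidHom.ext fun γ => by
      have := DFunLike.congr_fun χ.2.1 γ
      rw [MonoidHom.pow_apply] at this ⊢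
      rw [pow_mul, this, MonoidHom.one_apply, one_pow]
  exact (isConjTwist_unique hG (hpow φ) (galChar hG (n * q) g φ').2.1
    (he ▸ conjChar_spec hG (autC g) φ') (conjChar_spec hG (autC g) φ)).symm

section Generic

variable (p : ℕ) [hp : Fact p.Prime] {M : ℕ} [NeZero M] {Γ : Subgroup SL(2, ℤ)}
  (hG : GoodLevel M Γ)

theorem exists_galPadOf (g : GQ) (ψ : parabolicHoms ℤ_[p] Γ ℤ_[p]) :
    ∃ ψ' : parabolicHoms ℤ_[p] Γ ℤ_[p],
      ∀ k, padChar p k ψ' = galChar hG (p ^ k) g (padChar p k ψ) := by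
  refine exists_padChar_eq p _ fun k => ?_
  rw [← galChar_level hG (pow_dvd_pow p k.le_succ) g (padChar p k ψ) (padChar p (k + 1) ψ ^ p)
    (by rw [SubgroupClass.coe_pow]; exact padChar_succ p k ψ), map_pow, SubgroupClass.coe_pow]

/-- The Galois action on parabolic homomorphisms into `ℤ_p`, for any good level. -/
def galPadOf (g : GQ) (ψ : parabolicHoms ℤ_[p] Γ ℤ_[p]) : parabolicHoms ℤ_[p] Γ ℤ_[p] :=
  (exists_galPadOf p hG g ψ).choose

/-- The action on homomorphisms induces the action on each character. -/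
theorem padChar_galPadOf (g : GQ) (ψ : parabolicHoms ℤ_[p] Γ ℤ_[p]) (k : ℕ) :
    padChar p k (galPadOf p hG g ψ) = galChar hG (p ^ k) g (padChar p k ψ) :=
  (exists_galPadOf p hG g ψ).choose_spec k

/-- The representation as linear maps, for any good level. -/
def galLinOf : GQ →* Module.End ℤ_[p] (parabolicHoms ℤ_[p] Γ ℤ_[p]) where
  toFun g :=
    { toFun := galPadOf p hG g
      map_add' := fun ψ ψ' => padChar_ext p fun k => by
        rw [padChar_galPadOf, padChar_add, map_mul, padChar_add, padChar_galPadOf,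
          padChar_galPadOf]
      map_smul' := fun a ψ => padChar_ext p fun k => by
        rw [padChar_galPadOf, padChar_smul, map_pow, RingHom.id_apply, padChar_smul,
          padChar_galPadOf] }
  map_one' := LinearMap.ext fun ψ => padChar_ext p fun k => by
    show padChar p k (galPadOf p hG 1 ψ) = padChar p k ψ
    rw [padChar_galPadOf, map_one, MulAut.one_apply]
  map_mul' g h := LinearMap.ext fun ψ => padChar_ext p fun k => by
    show padChar p k (galPadOf p hG (g * h) ψ) = padChar p k (galPadOf p hG g (galPadOf p hG h ψ))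
    rw [padChar_galPadOf, padChar_galPadOf, padChar_galPadOf, map_mul, MulAut.mul_apply]

/-- Inertia away from the level and `p` acts trivially. -/
theorem galLinOf_inertia {ℓ : ℕ} (hℓ : ℓ.Prime) (hℓM : ¬ ℓ ∣ M) (hℓp : ℓ ≠ p)
    {A : ValuationSubring (AlgebraicClosure ℚ)} (hA : A.LiesOverPrime ℓ) {g : GQ}
    (hg : g ∈ A.inertiaSubgroupIn ℚ) : galLinOf p hG g = 1 :=
  LinearMap.ext fun ψ => padChar_ext p fun k => by
    show padChar p k (galPadOf p hG g ψ) = padChar p k ψ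
    rw [padChar_galPadOf, galChar_inertia _ _ hℓ hℓM (fun h => hℓp
      ((Nat.prime_dvd_prime_iff_eq hℓ hp.out).mp (hℓ.dvd_of_dvd_pow h))) hA hg, MulAut.one_apply]

end Generic

variable (p : ℕ) [hp : Fact p.Prime] {N : ℕ} [NeZero N]

local notation "V" => parabolicHoms ℤ_[p] (Gamma0 N) ℤ_[p]

/-- The Galois action on parabolic homomorphisms into `ℤ_p`. -/
def galPad (g : GQ) (ψ : V) : V := galPadOf p (goodLevel_Gamma0 N) g ψ

/-- The action on homomorphisms induces the Galois action on each character. -/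
theorem padChar_galPad (g : GQ) (ψ : V) (k : ℕ) :
    padChar p k (galPad p g ψ) = galChar (goodLevel_Gamma0 N) (p ^ k) g (padChar p k ψ) :=
  padChar_galPadOf p _ g ψ k

/-- The representation as linear maps. -/
def galLin : GQ →* Module.End ℤ_[p] V := galLinOf p (goodLevel_Gamma0 N)

/-- The linear map is the action. -/
theorem galLin_apply (g : GQ) (ψ : V) : galLin p g ψ = galPad p g ψ := rfl

variable (N) in
/-- The representation as matrices. -/
def galMat : GQ →* Matrix (Fin (parRank (Gamma0 N))) (Fin (parRank (Gamma0 N))) ℤ_[p] :=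
  ((LinearMap.toMatrixAlgEquiv'.toAlgHom.comp
    ((parabolicCoords (Gamma0 N) ℤ_[p] ℤ_[p]).conjAlgEquiv
      ℤ_[p]).toAlgHom).toRingHom.toMonoidHom).comp
      (galLin p)

/-- The matrix computes the action in coordinates. -/
theorem galMat_mulVec (g : GQ) (ψ : V) :
    galMat p N g *ᵥ parabolicCoords (Gamma0 N) ℤ_[p] ℤ_[p] ψ =
      parabolicCoords (Gamma0 N) ℤ_[p] ℤ_[p] (galPad p g ψ) := by
  show LinearMap.toMatrixAlgEquiv' _ *ᵥ _ = _
  rw [← Matrix.toLinAlgEquiv'_apply, Matrix.toLinAlgEquiv'_toMatrixAlgEquiv']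
  simp [LinearEquiv.conjAlgEquiv_apply, galLin_apply]

/-- The matrix of a Hecke operator over `ℤ_p`. -/
def heckePadMat (t : CuspForm.heckeAlgebra N 2 ∅) :
    Matrix (Fin (parRank (Gamma0 N))) (Fin (parRank (Gamma0 N))) ℤ_[p] :=
  (parMat t).map (Int.cast : ℤ → ℤ_[p])

/-- The matrix computes the Hecke operator in coordinates. -/
theorem heckePadMat_mulVec (t : CuspForm.heckeAlgebra N 2 ∅) (ψ : V) :
    heckePadMat p t *ᵥ parabolicCoords (Gamma0 N) ℤ_[p] ℤ_[p] ψ =
      parabolicCoords (Gamma0 N) ℤ_[p] ℤ_[p] (parAction N ∅ ℤ_[p] ℤ_[p] t ψ) := by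
  funext j
  show _ = (parAction N ∅ ℤ_[p] ℤ_[p] t ψ).1 (Additive.ofMul (parElt _ j))
  rw [FermatAgent.Period.parAction_apply_parElt]
  simp [heckePadMat, Matrix.mulVec, dotProduct, zsmul_eq_mul]
  rfl

/-- The identification with roots of unity turns sums into products. -/
theorem zU_sum {n : ℕ} [NeZero n] {ι : Type*} (s : Finset ι) (f : ι → ZMod n) :
    zU n (Multiplicative.ofAdd (∑ i ∈ s, f i)) = ∏ i ∈ s, zU n (Multiplicative.ofAdd (f i)) := by
  rw [ofAdd_sum, map_prod]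

omit [NeZero N] in
/-- The Hecke operator on homomorphisms induces that on each character. -/
theorem padChar_heckeOp {ℓ : ℕ} (hℓ : ℓ.Prime) (k : ℕ) (ψ : V) :
    (padChar p k ⟨heckeOp ℤ_[p] N hℓ ψ.1, FermatAgent.Period.isParabolicHom_heckeOp ℤ_[p] hℓ ψ.2⟩ :
      Gamma0 N →* ℂˣ) = heckeChar N hℓ (padChar p k ψ : Gamma0 N →* ℂˣ) := by
  have : Fact ℓ.Prime := ⟨hℓ⟩
  have : NeZero ℓ := ⟨hℓ.ne_zero⟩
  refine MonoidHom.ext fun γ => ?_
  rw [padChar_apply]
  unfold heckeOp heckeChar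
  split <;>
    simp only [charOp_apply, FermatAgent.Period.TransferData.op_apply, map_sum, zU_sum,
      padChar_apply]

theorem galMat_commute_gen {ℓ : ℕ} (hℓ : ℓ.Prime) (g : GQ) :
    Commute (galMat p N g) (heckePadMat p ⟨_, MF.heckeAt_mem hℓ (Set.notMem_empty ℓ)⟩) := by
  refine Matrix.ext_iff_mulVec.mpr fun v => ?_
  obtain ⟨ψ, rfl⟩ := (parabolicCoords (Gamma0 N) ℤ_[p] ℤ_[p]).surjective v
  rw [← Matrix.mulVec_mulVec, ← Matrix.mulVec_mulVec, heckePadMat_mulVec, galMat_mulVec,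
    galMat_mulVec, heckePadMat_mulVec]
  refine congrArg _ (padChar_ext p fun k => Subtype.ext ?_)
  have e : ∀ χ : V, parAction N ∅ ℤ_[p] ℤ_[p] ⟨_, MF.heckeAt_mem hℓ (Set.notMem_empty ℓ)⟩ χ =
      ⟨heckeOp ℤ_[p] N hℓ χ.1, FermatAgent.Period.isParabolicHom_heckeOp ℤ_[p] hℓ χ.2⟩ :=
    fun χ => Subtype.ext
      (FermatAgent.Period.parAction_heckeAt ℤ_[p] ℤ_[p] hℓ (Set.notMem_empty ℓ) χ)
  rw [e, e, padChar_galPad, padChar_heckeOp, padChar_galPad]
  exact (congrArg (fun χ => ((galChar (goodLevel_Gamma0 N) (p ^ k) g χ :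
    parGroup (Gamma0 N) (p ^ k)) : Gamma0 N →* ℂˣ)) (Subtype.ext (padChar_heckeOp p hℓ k ψ))).trans
      (congrArg Subtype.val (galChar_heckeChar hℓ g (padChar p k ψ)))

/-- Galois commutes with the Hecke algebra on the Tate module. -/
theorem galMat_commute (t : CuspForm.heckeAlgebra N 2 ∅) (g : GQ) :
    Commute (galMat p N g) (heckePadMat p t) := by
  let F : CuspForm.heckeAlgebra N 2 ∅ →+*
      Matrix (Fin (parRank (Gamma0 N))) (Fin (parRank (Gamma0 N))) ℤ_[p] :=
    (Int.castRingHom ℤ_[p]).mapMatrix.comp (parMatHom N ∅)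
  have hF : ∀ t, heckePadMat p t = F t := fun t => rfl
  rw [hF]
  obtain ⟨x, hx⟩ := t
  induction hx using Algebra.adjoin_induction with
  | mem x hx =>
    obtain ⟨ℓ, hℓ, -, rfl⟩ := MF.exists_eq_heckeAt_of_mem_heckeGenerators hx
    rw [← hF]
    exact galMat_commute_gen p hℓ g
  | algebraMap r =>
    change Commute _ (F (algebraMap ℤ _ r))
    rw [eq_intCast, map_intCast]
    exact (Int.cast_commute r _).symm
  | add x y hx hy ihx ihy =>
    have := ihx.add_right ihy
    rw [← map_add] at this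
    exact this
  | mul x y hx hy ihx ihy =>
    have := ihx.mul_right ihy
    rw [← map_mul] at this
    exact this

/-- **The congruence relation** on the Tate module. -/
theorem galMat_congruence {ℓ : ℕ} (hℓ : ℓ.Prime) (hℓN : ¬ ℓ ∣ N) (hℓp : ℓ ≠ p)
    {A : ValuationSubring (AlgebraicClosure ℚ)} (hA : A.LiesOverPrime ℓ) {g : GQ}
    (hg : A.IsFrobeniusAt g ℓ) :
    galMat p N g * galMat p N g -
        heckePadMat p ⟨_, MF.heckeAt_mem hℓ (Set.notMem_empty ℓ)⟩ * galMat p N g +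
      (ℓ : Matrix (Fin (parRank (Gamma0 N))) (Fin (parRank (Gamma0 N))) ℤ_[p]) = 0 := by
  have := Fact.mk hℓ
  have : NeZero ℓ := ⟨hℓ.ne_zero⟩
  suffices h : heckePadMat p ⟨_, MF.heckeAt_mem hℓ (Set.notMem_empty ℓ)⟩ =
      galMat p N g + (ℓ : Matrix (Fin (parRank (Gamma0 N))) (Fin (parRank (Gamma0 N))) ℤ_[p]) *
        galMat p N g⁻¹ by
    rw [h, add_mul, mul_assoc, ← map_mul (galMat p N) g⁻¹ g, inv_mul_cancel, map_one, mul_one]
    abel
  refine Matrix.ext_iff_mulVec.mpr fun v => ?_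
  obtain ⟨ψ, rfl⟩ := (parabolicCoords (Gamma0 N) ℤ_[p] ℤ_[p]).surjective v
  rw [Matrix.add_mulVec, ← Matrix.mulVec_mulVec, heckePadMat_mulVec, galMat_mulVec, galMat_mulVec]
  rw [show ∀ u, (ℓ : Matrix (Fin (parRank (Gamma0 N))) (Fin (parRank (Gamma0 N))) ℤ_[p]) *ᵥ u =
    (ℓ : ℤ_[p]) • u from fun u => by
      rw [show (ℓ : Matrix (Fin (parRank (Gamma0 N))) (Fin (parRank (Gamma0 N))) ℤ_[p]) =
        Matrix.diagonal fun _ => (ℓ : ℤ_[p]) from (Matrix.diagonal_natCast ℓ).symm]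
      funext i; simp [Matrix.mulVec_diagonal], ← map_smul, ← map_add]
  refine congrArg _ (padChar_ext p fun k => Subtype.ext ?_)
  rw [show parAction N ∅ ℤ_[p] ℤ_[p] ⟨_, MF.heckeAt_mem hℓ (Set.notMem_empty ℓ)⟩ ψ =
      ⟨heckeOp ℤ_[p] N hℓ ψ.1, FermatAgent.Period.isParabolicHom_heckeOp ℤ_[p] hℓ ψ.2⟩ from
    Subtype.ext (FermatAgent.Period.parAction_heckeAt ℤ_[p] ℤ_[p] hℓ (Set.notMem_empty ℓ) ψ),
    padChar_heckeOp, heckeChar_of_not_dvd hℓN,
    galChar_congruence hℓN (fun h => hℓp ((Nat.prime_dvd_prime_iff_eq hℓ hp.out).mp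
      (hℓ.dvd_of_dvd_pow h))) hA hg, padChar_add, padChar_galPad, Subgroup.coe_mul]
  congr 1
  rw [Nat.cast_smul_eq_nsmul, padChar_nsmul, padChar_galPad, SubgroupClass.coe_pow]

/-- The representation is unramified away from `p N`. -/
theorem galMat_inertia {ℓ : ℕ} (hℓ : ℓ.Prime) (hℓN : ¬ ℓ ∣ N) (hℓp : ℓ ≠ p)
    {A : ValuationSubring (AlgebraicClosure ℚ)} (hA : A.LiesOverPrime ℓ) {g : GQ}
    (hg : g ∈ A.inertiaSubgroupIn ℚ) : galMat p N g = 1 := by
  simp [galMat, galLin, galLinOf_inertia p (goodLevel_Gamma0 N) hℓ hℓN hℓp hA hg]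

/-- The representation is continuous. -/
theorem galMat_continuous (k : ℕ) :
    ∃ L : IntermediateField ℚ (AlgebraicClosure ℚ), FiniteDimensional ℚ L ∧
      ∀ g : GQ, (∀ x ∈ L, g x = x) → ∀ i j, (p : ℤ_[p]) ^ k ∣ (galMat p N g - 1) i j := by
  obtain ⟨L, hL, h⟩ := galChar_finite_level (goodLevel_Gamma0 N) (p ^ k)
  refine ⟨L, hL, fun g hg i j => ?_⟩
  set ψ := (parabolicCoords (Gamma0 N) ℤ_[p] ℤ_[p]).symm (Pi.single j 1)
  have e := congrFun (galMat_mulVec p g ψ) i
  rw [LinearEquiv.apply_symm_apply, Matrix.mulVec_single_one] at e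
  have hk : padChar p k (galPad p g ψ) = padChar p k ψ := by
    rw [padChar_galPad, h g hg, MulAut.one_apply]
  have h2 := dvd_of_padChar_eq p hk (parElt (Gamma0 N) i)
  rw [Matrix.sub_apply, show galMat p N g i j = _ from e]
  convert h2 using 2
  · rfl
  rw [show (1 : Matrix _ _ ℤ_[p]) i j = parabolicCoords (Gamma0 N) ℤ_[p] ℤ_[p] ψ i from by
    rw [LinearEquiv.apply_symm_apply, Matrix.one_apply, Pi.single_apply]]
  rfl

/-- Complex conjugation acts by minus the involution. -/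
theorem galMat_complexConjugation :
    galMat p N complexConjugation = -((invMat N).map (Int.cast : ℤ → ℤ_[p])) := by
  refine Matrix.ext_iff_mulVec.mpr fun v => ?_
  obtain ⟨ψ, rfl⟩ := (parabolicCoords (Gamma0 N) ℤ_[p] ℤ_[p]).surjective v
  rw [galMat_mulVec, Matrix.neg_mulVec]
  have hJ : galPad p complexConjugation ψ =
      -⟨charInvolution N ℤ_[p] ℤ_[p] ψ.1,
        charInvolution_mem_parabolicHoms N ℤ_[p] ℤ_[p] ψ.2⟩ := by
    refine padChar_ext p fun k => Subtype.ext (MonoidHom.ext fun γ => ?_)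
    rw [padChar_galPad, galChar_complexConjugation, MonoidHom.inv_apply, MonoidHom.comp_apply,
      padChar_apply, padChar_apply, ← map_inv, ← ofAdd_neg, ← map_neg]
    rfl
  rw [hJ, map_neg]
  congr 1
  funext j
  show ψ.1 (Additive.ofMul (jConjGamma0 N (parElt _ j))) = _
  rw [FermatAgent.Period.eq_sum_parHom ψ.2]
  simp [invMat, Matrix.mulVec, dotProduct, zsmul_eq_mul]
  rfl

end FermatAgent.ES
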