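import Fermat.Agent.ES.Tate.Extend
import Fermat.Agent.ES.Tate.EigenRep
import Fermat.Prelude.Def_CuspForm_HeckeGaloisRepDatum

/-!
# Galois representations attached to points of Hecke algebras
-/

set_option autoImplicit false

open Polynomial IsLocalRing CongruenceSubgroup

noncomputable section

namespace FermatAgent.ES

theorem exists_eigenChar_extend {N : ℕ} [NeZero N] {S : Set ℕ} {Ω : Type} [Field Ω] [IsAlgClosed Ω]
    (f : CuspForm.heckeAlgebra N 2 S →+* Ω) :
    ∃ g : CuspForm.heckeAlgebra N 2 ∅ →+* Ω,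
      ∀ t, g (Subalgebra.inclusion (CuspForm.heckeAlgebra_mono (Set.empty_subset S)) t) = f t := by
  let i := (Subalgebra.inclusion
    (CuspForm.heckeAlgebra_mono (N := N) (k := 2) (Set.empty_subset S))).toRingHom
  let : Algebra (CuspForm.heckeAlgebra N 2 S) (CuspForm.heckeAlgebra N 2 ∅) := i.toAlgebra
  have : Module.Finite ℤ (CuspForm.heckeAlgebra N 2 ∅) := MF.moduleFinite_heckeAlgebra N 2 ∅
  have : Algebra.IsIntegral (CuspForm.heckeAlgebra N 2 S) (CuspForm.heckeAlgebra N 2 ∅) :=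
    Algebra.IsIntegral.tower_top (R := ℤ)
  obtain ⟨g, hg⟩ := exists_ringHom_extend (Subalgebra.inclusion_injective
    (CuspForm.heckeAlgebra_mono (N := N) (k := 2) (Set.empty_subset S))) f
  exact ⟨g, fun t => RingHom.congr_fun hg t⟩

/-- **The Galois representation of a point `χ` of the Hecke algebra**, after a finite extension
`O''` of the coefficients `O`: it is unramified outside `N p`, and the characteristic polynomial of
Frobenius at `ℓ` outside `S` and prime to `N` is `X² - χ(T_ℓ) X + ℓ`. -/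
theorem galoisRep_of_point (p : ℕ) [Fact p.Prime] (N : ℕ) [NeZero N] (S : Finset ℕ) (hpS : p ∈ S)
    (O : Type) [CommRing O] [IsDomain O] [IsDiscreteValuationRing O]
    [IsAdicComplete (maximalIdeal O) O] [Finite (ResidueField O)] [CharZero O]
    (hp : (p : O) ∈ maximalIdeal O)
    (χ : CuspForm.heckeAlgebra N 2 (↑S : Set ℕ) →+* O) :
    ∃ (O'' : Type) (_ : CommRing O'') (_ : IsDomain O'') (_ : IsDiscreteValuationRing O'')
      (_ : IsAdicComplete (maximalIdeal O'') O'')
      (_ : Finite (ResidueField O'')) (_ : CharZero O'')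
      (_ : Algebra O O'') (_ : Module.Finite O O'') (_ : IsLocalHom (algebraMap O O'')),
    Function.Injective (algebraMap O O'') ∧
    ∃ ρ : GaloisRepAdic O'',
      (∀ (ℓ : ℕ) (hℓ : ℓ.Prime) (hℓN : ¬ ℓ ∣ N) (hℓS : ℓ ∉ (↑S : Set ℕ)),
        ∀ A : ValuationSubring (AlgebraicClosure ℚ), A.LiesOverPrime ℓ →
          ∀ σ : GQ, A.IsFrobeniusAt σ ℓ →
            LinearMap.charpoly (ρ.ρ σ) =
              X ^ 2 - C (algebraMap O O'' (χ (CuspForm.heckeAlgebra.T hℓ hℓN hℓS))) * X
                + C ((ℓ : O''))) ∧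
      (∀ q : ℕ, q.Prime → ¬ q ∣ N → q ≠ p → ρ.IsUnramifiedAt q) := by
  classical
  set Ω := AlgebraicClosure (FractionRing O)
  obtain ⟨g, hg⟩ := exists_eigenChar_extend (((algebraMap O Ω)).comp χ)
  have := MF.moduleFinite_heckeAlgebra N 2 ∅
  obtain ⟨O'', i1, i2, i3, i4, i5, i6, i7, i8, i9, hinj, hp'', ⟨ι⟩, χ'', j, hj, hjg⟩ :=
    exists_finite_model O hp g
  refine ⟨O'', i1, i2, i3, i4, i5, i6, i7, i8, i9, hinj, eigRep ι χ'' hp'', ?_,
    fun q hq hqN hqp => eigRep_unramified ι χ'' hp'' hq hqN hqp⟩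
  intro ℓ hℓ hℓN hℓS A hA σ hσ
  rw [charpoly_eigRep_frobenius ι χ'' hp'' hℓ hℓN (fun h => hℓS (h ▸ hpS)) hA hσ]
  congr 4
  refine hj ?_
  rw [hjg, j.commutes]
  rw [← RingHom.comp_apply, ← hg]
  congr 1
  exact Subtype.ext (dif_neg hℓN)

end FermatAgent.ES
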