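import Fermat.Agent.ES.Tate.Module
import Fermat.Prelude.Def_GaloisRep_Adic
import Mathlib.RingTheory.Localization.Module
import Mathlib.RingTheory.DiscreteValuationRing.Basic
import Mathlib.LinearAlgebra.FreeModule.PID

/-!
# Eigenlattices in the Tate module
-/

set_option autoImplicit false

open CongruenceSubgroup
open scoped Matrix
open FermatAgent.Period (parRank parElt parabolicCoords parMat parMatHom parAction invMat
  parEigen parSignEigen)

noncomputable section

namespace FermatAgent.ES

variable {N : ℕ} [NeZero N]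

section Lattice

variable {O : Type} [CommRing O] (χ : CuspForm.heckeAlgebra N 2 ∅ →+* O)

/-- The matrix of a Hecke operator over `O`. -/
def intMat (R : Type) [CommRing R] (t : CuspForm.heckeAlgebra N 2 ∅) :
    Matrix (Fin (parRank (Gamma0 N))) (Fin (parRank (Gamma0 N))) R :=
  (parMat t).map (Int.cast : ℤ → R)

/-- The vectors on which the Hecke algebra acts through `χ`. -/
def eigLat : Submodule O (Fin (parRank (Gamma0 N)) → O) :=
  ⨅ t, LinearMap.ker ((intMat O t).mulVecLin - χ t • 1)

/-- Membership in the eigenlattice. -/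
theorem mem_eigLat {v : Fin (parRank (Gamma0 N)) → O} :
    v ∈ eigLat χ ↔ ∀ t, intMat O t *ᵥ v = χ t • v := by
  simp [eigLat, Submodule.mem_iInf, LinearMap.mem_ker, sub_eq_zero]

/-- The matrices of Hecke operators commute with change of coefficients. -/
theorem intMat_map {R S : Type} [CommRing R] [CommRing S] (f : R →+* S)
    (t : CuspForm.heckeAlgebra N 2 ∅) : (intMat R t).map f = intMat S t := by
  ext i j
  simp [intMat]

/-- The matrix of the involution commutes with change of coefficients. -/
theorem invMat_map {R S : Type} [CommRing R] [CommRing S] (f : R →+* S) :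
    ((invMat N).map (Int.cast : ℤ → R)).map f = (invMat N).map (Int.cast : ℤ → S) := by
  ext i j
  simp

variable {K : Type} [Field K]

/-- A change of coefficients maps eigenlattices to eigenlattices. -/
theorem map_mem_eigLat (f : O →+* K) {v : Fin (parRank (Gamma0 N)) → O} (hv : v ∈ eigLat χ) :
    (f ∘ v) ∈ eigLat (f.comp χ) := by
  refine (mem_eigLat _).mpr fun t => ?_
  rw [← intMat_map f t]
  funext i
  rw [← RingHom.map_mulVec, (mem_eigLat χ).mp hv t]
  simp

/-- The coordinates of a parabolic homomorphism lie in the eigenlattice iff it is an eigenvector. -/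
theorem coords_mem_eigLat [CharZero K] (χK : CuspForm.heckeAlgebra N 2 ∅ →+* K)
    (ψ : ModularCurve.Period.parabolicHoms K (Gamma0 N) K) :
    parabolicCoords (Gamma0 N) K K ψ ∈ eigLat χK ↔ ψ ∈ parEigen K χK := by
  rw [mem_eigLat, FermatAgent.Period.mem_parEigen]
  refine forall_congr' fun t => ?_
  rw [← (parabolicCoords (Gamma0 N) K K).injective.eq_iff, map_smul]
  refine Eq.congr ?_ rfl
  funext j
  show _ = (parAction N ∅ K K t ψ).1 (Additive.ofMul (parElt _ j))
  rw [FermatAgent.Period.parAction_apply_parElt]
  simp [intMat, Matrix.mulVec, dotProduct, zsmul_eq_mul]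
  rfl

theorem coords_parInv [CharZero K] (ψ : ModularCurve.Period.parabolicHoms K (Gamma0 N) K) :
    parabolicCoords (Gamma0 N) K K (FermatAgent.Period.parInv N K ψ) =
      (invMat N).map (Int.cast : ℤ → K) *ᵥ parabolicCoords (Gamma0 N) K K ψ := by
  funext j
  show ψ.1 (Additive.ofMul (ModularCurve.Period.jConjGamma0 N (parElt _ j))) = _
  rw [FermatAgent.Period.eq_sum_parHom ψ.2]
  simp [invMat, Matrix.mulVec, dotProduct, zsmul_eq_mul]
  rfl

/-- Over a field of characteristic zero the eigenlattice has dimension two. -/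
theorem finrank_eigLat_field [CharZero K] (χK : CuspForm.heckeAlgebra N 2 ∅ →+* K) :
    Module.finrank K (eigLat χK) = 2 := by
  rw [← FermatAgent.Period.finrank_parEigen χK]
  refine (LinearEquiv.ofSubmodules (parabolicCoords (Gamma0 N) K K) _ _ ?_).finrank_eq.symm
  ext v
  rw [Submodule.mem_map]
  constructor
  · rintro ⟨ψ, hψ, rfl⟩
    exact (coords_mem_eigLat χK ψ).mpr hψ
  · intro hv
    obtain ⟨ψ, rfl⟩ := (parabolicCoords (Gamma0 N) K K).surjective v
    exact ⟨ψ, (coords_mem_eigLat χK ψ).mp hv, rfl⟩

/-- No sign of the involution exhausts an eigenspace. -/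
theorem exists_inv_ne [CharZero K] (χK : CuspForm.heckeAlgebra N 2 ∅ →+* K) {ε : ℤ}
    (hε : ε = 1 ∨ ε = -1) :
    ∃ v ∈ eigLat χK, (invMat N).map (Int.cast : ℤ → K) *ᵥ v ≠ (ε : K) • v := by
  by_contra h
  push Not at h
  have he : parSignEigen K χK ε = parEigen K χK := le_antisymm inf_le_left fun ψ hψ => by
    refine Submodule.mem_inf.mpr ⟨hψ, ?_⟩
    rw [LinearMap.mem_ker, LinearMap.sub_apply, sub_eq_zero]
    refine (parabolicCoords (Gamma0 N) K K).injective ?_
    rw [coords_parInv, h _ ((coords_mem_eigLat χK ψ).mpr hψ), LinearMap.smul_apply,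
      Module.End.one_apply, map_smul]
  have h1 := FermatAgent.Period.finrank_parSignEigen (K := K) χK ε hε
  rw [he, FermatAgent.Period.finrank_parEigen χK] at h1
  omega

variable [IsDomain O] [Algebra O K] [IsFractionRing O K]

/-- An eigenvector over the fraction field is a multiple of one of the lattice. -/
theorem exists_smul_eq_of_mem {v : Fin (parRank (Gamma0 N)) → K}
    (hv : v ∈ eigLat ((algebraMap O K).comp χ)) :
    ∃ (b : O) (w : Fin (parRank (Gamma0 N)) → O), b ≠ 0 ∧ w ∈ eigLat χ ∧
      algebraMap O K ∘ w = algebraMap O K b • v := by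
  classical
  obtain ⟨b, hb⟩ := IsLocalization.exist_integer_multiples_of_finite (nonZeroDivisors O) v
  choose w hw using hb
  have hb0 : (b : O) ≠ 0 := nonZeroDivisors.coe_ne_zero b
  have hwv : algebraMap O K ∘ w = algebraMap O K b • v := funext fun i => by
    simp [hw i, Algebra.smul_def]
  refine ⟨b, w, hb0, (mem_eigLat χ).mpr fun t => funext fun i =>
    IsFractionRing.injective O K ?_, hwv⟩
  rw [RingHom.map_mulVec, intMat_map, hwv, Matrix.mulVec_smul, (mem_eigLat _).mp hv t]
  simp only [Pi.smul_apply, smul_eq_mul, RingHom.comp_apply, map_mul, hw i]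
  rw [Algebra.smul_def]
  ring

variable [IsPrincipalIdealRing O]

variable (K) in
/-- The eigenlattice has rank two. -/
theorem finrank_eigLat [CharZero K] : Module.finrank O (eigLat χ) = 2 := by
  classical
  set χK := (algebraMap O K).comp χ
  set b := Module.Free.chooseBasis O (eigLat χ)
  have : Fintype (Module.Free.ChooseBasisIndex O (eigLat χ)) :=
    Module.Free.ChooseBasisIndex.fintype O (eigLat χ)
  let f : eigLat χ →ₗ[O] (Fin (parRank (Gamma0 N)) → K) :=
    ((Algebra.linearMap O K).compLeft (Fin (parRank (Gamma0 N)))).comp (eigLat χ).subtype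
  have hf : ∀ v, f v = algebraMap O K ∘ (v : Fin (parRank (Gamma0 N)) → O) := fun v => rfl
  have hfi : Function.Injective f := fun v w h => Subtype.ext (funext fun i =>
    IsFractionRing.injective O K (congrFun h i))
  have hmem : ∀ i, f (b i) ∈ eigLat χK := fun i => map_mem_eigLat χ _ (b i).2
  set w : Module.Free.ChooseBasisIndex O (eigLat χ) → eigLat χK := fun i => ⟨f (b i), hmem i⟩
  have hli : LinearIndependent K w := by
    refine LinearIndependent.of_comp (eigLat χK).subtype ?_
    exact (LinearIndependent.iff_fractionRing O K).mp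
      (b.linearIndependent.map' f (LinearMap.ker_eq_bot.mpr hfi))
  have hsp : ⊤ ≤ Submodule.span K (Set.range w) := by
    rintro ⟨v, hv⟩ -
    obtain ⟨c, u, hc, hu, huv⟩ := exists_smul_eq_of_mem χ hv
    have hc' : algebraMap O K c ≠ 0 := fun h =>
      hc (IsFractionRing.injective O K (by rw [h, map_zero]))
    have e : f ⟨u, hu⟩ = algebraMap O K c • v := huv
    have hrep := congrArg f (b.sum_repr ⟨u, hu⟩)
    rw [map_sum, e] at hrep
    have : (⟨v, hv⟩ : eigLat χK) =
        ∑ i, ((algebraMap O K c)⁻¹ * algebraMap O K (b.repr ⟨u, hu⟩ i)) • w i := by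
      refine Subtype.ext ?_
      rw [Submodule.coe_sum]
      refine (smul_right_injective _ hc' ?_)
      show algebraMap O K c • v = algebraMap O K c • _
      rw [← hrep, Finset.smul_sum]
      refine Finset.sum_congr rfl fun i _ => ?_
      rw [map_smul, Submodule.coe_smul, smul_smul, mul_inv_cancel_left₀ hc', algebraMap_smul]
    rw [this]
    exact Submodule.sum_mem _ fun i _ => Submodule.smul_mem _ _ (Submodule.subset_span ⟨i, rfl⟩)
  rw [Module.finrank_eq_card_basis b, ← finrank_eigLat_field χK,
    Module.finrank_eq_card_basis (Module.Basis.mk hli hsp)]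

end Lattice

end FermatAgent.ES
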