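import Fermat.Agent.ES.Tate.Residual
import Fermat.Agent.EC.DetCyclotomic
import Fermat.Prelude.Def_FreyPackage_EigenformResidualAttachment
import Fermat.Agent.ECLocal.Frey

/-!
# Residual attachment for the Frey curve
-/

set_option autoImplicit false

open Polynomial CongruenceSubgroup

noncomputable section

namespace FermatAgent.ES

/-- Trace and determinant read off from a quadratic characteristic polynomial. -/
theorem trace_det_of_charpoly {k V : Type} [Field k] [AddCommGroup V] [Module k V]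
    [Module.Finite k V] (h2 : Module.finrank k V = 2) (f : Module.End k V) (a d : k)
    (h : LinearMap.charpoly f = X ^ 2 - C a * X + C d) :
    LinearMap.trace k V f = a ∧ LinearMap.det f = d := by
  let b : Module.Basis (Fin 2) k V := Module.finBasisOfFinrankEq k V h2
  rw [← LinearMap.charpoly_toMatrix f b, Matrix.charpoly_fin_two] at h
  constructor
  · have := congrArg (fun q : k[X] => q.coeff 1) h
    simp [coeff_X_pow] at this
    rw [LinearMap.trace_eq_matrix_trace k b f]
    exact this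
  · have := congrArg (fun q : k[X] => q.coeff 0) h
    simp [coeff_X_pow] at this
    rw [← LinearMap.det_toMatrix b]
    simpa using this

/-- The residual representation of an eigenform congruent to the Frey curve is the representation on
the `p`-torsion of that curve. -/
theorem eigenformResidualAttachmentAt (P : FreyPackage) (M : ℕ) :
    P.EigenformResidualAttachmentAt M := by
  intro g hg 𝔪 hmax hp𝔪
  let : DecidableEq (AlgebraicClosure ℚ) := Classical.decEq _
  have : Fact P.p.Prime := ⟨P.pp⟩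
  let : Field (integralClosure ℤ ℂ ⧸ 𝔪) := Ideal.Quotient.field 𝔪
  have : CharP (integralClosure ℤ ℂ ⧸ 𝔪) P.p :=
    (CharP.charP_iff_prime_eq_zero P.pp).mpr (by
      rw [← map_natCast (Ideal.Quotient.mk 𝔪)]
      exact Ideal.Quotient.eq_zero_iff_mem.mpr hp𝔪)
  let ψ := Ideal.Quotient.mk 𝔪
  obtain ⟨ρ, hρ, -⟩ := residualRep_of_eigenform hg P.pp ψ
  have hΔ : P.freyCurve.Δ ≠ 0 := by
    rw [ECLocal.freyCurve_eq_map, WeierstrassCurve.map_Δ, eq_intCast]
    exact Int.cast_ne_zero.2 (ECLocal.freyCurveInt_Δ_ne_zero P)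
  obtain ⟨L₁, hL₁, h₁⟩ := ρ.factorsThroughFiniteLevel
  obtain ⟨L₂, hL₂, h₂⟩ := EC.galoisFactorsThroughFiniteLevel_torsionBy P.freyCurve hΔ P.pp.ne_zero
  have := hL₁; have := hL₂
  let F : IntermediateField ℚ (AlgebraicClosure ℚ) :=
    IntermediateField.normalClosure ℚ (L₁ ⊔ L₂ : IntermediateField ℚ _) (AlgebraicClosure ℚ)
  have : Normal ℚ F := normalClosure.normal ℚ _ _
  have : FiniteDimensional ℚ F := normalClosure.is_finiteDimensional ℚ _ _
  have : IsGalois ℚ F := ⟨⟩
  have : NumberField F := ⟨⟩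
  refine ⟨_, inferInstance, ZMod.algebra _ P.p, ρ.V, ρ.instAddCommGroup, ρ.instModule, ρ.ρ, ψ,
    F, inferInstance, inferInstance, inferInstance, inferInstance, inferInstance, ?_,
    ρ.finrank_eq, ?_, ?_, ?_⟩
  · rw [Ideal.mk_ker]
  · intro σ hσ
    have hfix : ∀ x ∈ F, σ x = x := fun x hx => by
      have h := AlgEquiv.restrictNormal_commutes σ F ⟨x, hx⟩
      rw [show σ.restrictNormal F = 1 from hσ] at h
      exact h.symm
    have hle : L₁ ⊔ L₂ ≤ F := IntermediateField.le_normalClosure _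
    exact ⟨h₂ σ fun x hx => hfix x (hle ((le_sup_right : L₂ ≤ L₁ ⊔ L₂) hx)),
      h₁ σ fun x hx => hfix x (hle ((le_sup_left : L₁ ≤ L₁ ⊔ L₂) hx))⟩
  all_goals
    intro ℓ hℓ hℓM hℓp A hA τ hτ
    have hℓk : (ℓ : integralClosure ℤ ℂ ⧸ 𝔪) ≠ 0 := by
      rw [Ne, CharP.cast_eq_zero_iff _ P.p, Nat.prime_dvd_prime_iff_eq P.pp hℓ]
      exact Ne.symm hℓp
    obtain ⟨a, ha, hch⟩ := hρ ℓ hℓ hℓM hℓk A hA τ hτ
  · exact ⟨a, ha, (trace_det_of_charpoly ρ.finrank_eq (ρ.ρ τ) (ψ a) (ℓ : _) hch).1⟩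
  · exact (trace_det_of_charpoly ρ.finrank_eq (ρ.ρ τ) (ψ a) (ℓ : _) hch).2

end FermatAgent.ES
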